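import Fermat.Agent.Two.Theta.Quat.Modular

/-!
# The unweighted theta series of an even quaternary form
-/

set_option autoImplicit false

noncomputable section

open UpperHalfPlane CongruenceSubgroup ModularFormClass
open scoped Real MatrixGroups ModularForm OnePoint

namespace Fermat.Agent.Two.Theta.Quat

namespace EvenForm

variable (Q : EvenForm)

theorem one_weight (a : ℤ) (_ : IsUnit (a : ZMod 1)) (h : Fin 4 → ZMod 1) :
    (fun _ : Fin 4 → ZMod 1 => (1 : ℂ)) (a • h) =
      (1 : DirichletCharacter ℂ 1) a * (fun _ : Fin 4 → ZMod 1 => (1 : ℂ)) h := by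
  rw [MulChar.one_apply (isUnit_of_subsingleton _), one_mul]

/-- The number of representations of `n`. -/
def reps (n : ℕ) : ℕ := Nat.card {x : Fin 4 → ℤ // Q.eval x = n}

/-- **The theta series of an even quaternary form of level `N` and square determinant.** -/
def plainTheta : ModularForm ((Gamma0 Q.N : Subgroup SL(2, ℤ)) : Subgroup (GL (Fin 2) ℝ)) 2 where
  toFun := Q.thetaH 1 fun _ => 1
  slash_action_eq' := by
    rintro _ ⟨γ, hγ, rfl⟩
    refine (Q.slash_thetaH (M := 1) (γ := γ) 1 one_weight (by simpa using hγ)).trans ?_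
    rw [MulChar.one_apply (isUnit_of_subsingleton _), one_smul]
  holo' := Q.mdifferentiable_thetaH (M := 1) (φ := fun _ => 1)
  bdd_at_cusps' {c} hc := by
    rw [Subgroup.IsArithmetic.isCusp_iff_isCusp_SL2Z] at hc
    rw [OnePoint.isBoundedAt_iff_forall_SL2Z hc]
    exact fun γ _ => Q.isBoundedAtImInfty_slash_thetaH (M := 1) (φ := fun _ => 1) γ

theorem hasSum_plainTheta (τ : ℍ) :
    HasSum (fun n : ℕ => (Q.reps n : ℂ) • Function.Periodic.qParam 1 τ ^ n) (Q.plainTheta τ) := by
  have h := hasSum_theta Q (M := 1) (fun _ => 1) 1 one_weight τ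
  have e : ∀ n, thetaCoeff Q (M := 1) (fun _ => 1) n = (Q.reps n : ℂ) := fun n => by
    rw [thetaCoeff, Finset.sum_const, nsmul_one, reps,
      ← Set.ncard_eq_toFinset_card _ (Q.finite_eval_eq n)]
    rfl
  simp only [e] at h
  exact h

end EvenForm

end Fermat.Agent.Two.Theta.Quat
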