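import Mathlib.Data.Matrix.Mul
import Mathlib.LinearAlgebra.Matrix.NonsingularInverse
import Mathlib.LinearAlgebra.Matrix.Symmetric
import Mathlib.LinearAlgebra.Matrix.ToLinearEquiv
import Mathlib.Topology.Algebra.Ring.Real
import Mathlib.Analysis.Normed.Group.Pointwise
import Fermat.Agent.Two.Theta.Poisson

/-!
# Poisson summation for positive quadratic forms in any number of variables

For a positive symmetric real matrix `S`, the sum of `e^{π i z S[x + v]}` over `x ∈ ℤⁿ` is a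
constant times `(-i z)^{-n/2}` times the sum of `e(w·v) e^{-π i S⁻¹[w] / z}`.  The proof is by
induction on `n`, splitting off a square, with an extra real phase.
-/

set_option autoImplicit false
set_option maxHeartbeats 400000

noncomputable section

open Complex Real Matrix

namespace Fermat.Agent.Two.Theta.Quat

/-- The quadratic form `x ↦ xᵀ S x`. -/
def qf {n : ℕ} (S : Matrix (Fin n) (Fin n) ℝ) (x : Fin n → ℝ) : ℝ := x ⬝ᵥ S *ᵥ x

/-- A positive definite symmetric matrix. -/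
def IsPosForm {n : ℕ} (S : Matrix (Fin n) (Fin n) ℝ) : Prop :=
  S.IsSymm ∧ ∀ x, x ≠ 0 → 0 < qf S x

theorem qf_smul {n : ℕ} (S : Matrix (Fin n) (Fin n) ℝ) (t : ℝ) (x : Fin n → ℝ) :
    qf S (t • x) = t ^ 2 * qf S x := by
  simp only [qf, mulVec_smul, smul_dotProduct, dotProduct_smul, smul_eq_mul]
  ring

theorem continuous_qf {n : ℕ} (S : Matrix (Fin n) (Fin n) ℝ) : Continuous (qf S) := by
  unfold qf
  fun_prop

theorem IsPosForm.exists_coercive {n : ℕ} {S : Matrix (Fin n) (Fin n) ℝ} (hS : IsPosForm S) :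
    ∃ δ > 0, ∀ x, δ * ∑ i, x i ^ 2 ≤ qf S x := by
  rcases Nat.eq_zero_or_pos n with rfl | hn
  · exact ⟨1, one_pos, fun x => by simp [qf]⟩
  have : Nonempty (Fin n) := ⟨⟨0, hn⟩⟩
  obtain ⟨u, hu, hmin⟩ := (isCompact_sphere (0 : Fin n → ℝ) 1).exists_isMinOn
    (NormedSpace.sphere_nonempty.mpr zero_le_one) (continuous_qf S).continuousOn
  rw [mem_sphere_zero_iff_norm] at hu
  have hpos : 0 < qf S u := hS.2 u fun h => by simp [h] at hu
  refine ⟨qf S u / n, div_pos hpos (Nat.cast_pos.mpr hn), fun x => ?_⟩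
  have hle : ∑ i, x i ^ 2 ≤ n * ‖x‖ ^ 2 :=
    (Finset.sum_le_sum (g := fun _ => ‖x‖ ^ 2) fun i _ => sq_le_sq.mpr (by
      rw [abs_norm]; exact (Real.norm_eq_abs (x i)).symm.le.trans (norm_le_pi_norm x i))).trans (by simp)
  rcases eq_or_ne x 0 with rfl | hx
  · simp [qf]
  have hx' : 0 < ‖x‖ := norm_pos_iff.mpr hx
  have h1 : qf S u ≤ qf S (‖x‖⁻¹ • x) := hmin (by simp [norm_smul, hx'.ne'])
  rw [qf_smul, inv_pow, ← div_eq_inv_mul, le_div_iff₀ (pow_pos hx' 2)] at h1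
  refine le_trans ?_ h1
  rw [div_mul_eq_mul_div, div_le_iff₀ (Nat.cast_pos.mpr hn)]
  calc qf S u * ∑ i, x i ^ 2 ≤ qf S u * (n * ‖x‖ ^ 2) := mul_le_mul_of_nonneg_left hle hpos.le
    _ = qf S u * ‖x‖ ^ 2 * n := by ring

theorem summable_exp_sq {c : ℝ} (hc : 0 < c) (s : ℝ) :
    Summable fun m : ℤ => Real.exp (-(c * ((m : ℝ) + s) ^ 2)) := by
  have hτ : 0 < (((c / π : ℝ) : ℂ) * I).im := by simpa using div_pos hc Real.pi_pos
  refine (summable_shift hτ (s : ℂ)).congr fun m => ?_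
  rw [Complex.norm_exp]
  congr 1
  rw [show π * I * (((c / π : ℝ) : ℂ) * I) * ((m : ℂ) + s) ^ 2 =
    ((-(c * ((m : ℝ) + s) ^ 2) : ℝ) : ℂ) by
      push_cast
      field_simp
      linear_combination (c : ℂ) * ((m : ℂ) + s) ^ 2 * I_sq, Complex.ofReal_re]

theorem summable_exp_sum_sq {c : ℝ} (hc : 0 < c) : ∀ {n : ℕ} (v : Fin n → ℝ),
    Summable fun x : Fin n → ℤ => Real.exp (-(c * ∑ i, ((x i : ℝ) + v i) ^ 2))
  | 0, _ => .of_finite
  | n + 1, v => by
    refine (Fin.consEquiv fun _ => ℤ).summable_iff.mp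
      (((summable_exp_sq hc (v 0)).mul_of_nonneg (summable_exp_sum_sq hc (Fin.tail v))
        (fun _ => (Real.exp_pos _).le) fun _ => (Real.exp_pos _).le).congr fun p => ?_)
    rw [← Real.exp_add]
    simp only [Function.comp_apply, Fin.consEquiv_apply, Fin.sum_univ_succ, Fin.cons_zero,
      Fin.cons_succ, Fin.tail]
    ring_nf

theorem IsPosForm.summable_exp {n : ℕ} {S : Matrix (Fin n) (Fin n) ℝ} (hS : IsPosForm S) {c : ℝ}
    (hc : 0 < c) (v : Fin n → ℝ) :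
    Summable fun x : Fin n → ℤ => Real.exp (-(c * qf S (fun i => (x i : ℝ) + v i))) := by
  obtain ⟨δ, hδ, hle⟩ := hS.exists_coercive
  refine Summable.of_nonneg_of_le (fun _ => (Real.exp_pos _).le) (fun x => ?_)
    (summable_exp_sum_sq (mul_pos hc hδ) v)
  rw [Real.exp_le_exp, neg_le_neg_iff, mul_assoc]
  exact mul_le_mul_of_nonneg_left (hle _) hc.le

theorem norm_cexp_gauss (τ : ℂ) (q t : ℝ) :
    ‖cexp (π * I * τ * (q : ℂ) + 2 * π * I * (t : ℂ))‖ = Real.exp (-(π * τ.im * q)) := by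
  rw [Complex.norm_exp]
  congr 1
  simp

theorem norm_cexp_phase (t : ℝ) : ‖cexp (2 * π * I * (t : ℂ))‖ = 1 := by
  rw [Complex.norm_exp]
  simp

theorem IsPosForm.summable_gauss {n : ℕ} {S : Matrix (Fin n) (Fin n) ℝ} (hS : IsPosForm S) {τ : ℂ}
    (hτ : 0 < τ.im) (v : Fin n → ℝ) (φ : (Fin n → ℤ) → ℝ) :
    Summable fun x : Fin n → ℤ =>
      cexp (π * I * τ * (qf S fun i => (x i : ℝ) + v i : ℝ) + 2 * π * I * (φ x : ℂ)) :=
  Summable.of_norm ((hS.summable_exp (mul_pos Real.pi_pos hτ) v).congr fun _ =>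
    (norm_cexp_gauss _ _ _).symm)

theorem IsPosForm.mulVec_inv {n : ℕ} {S : Matrix (Fin n) (Fin n) ℝ} (hS : IsPosForm S)
    (u : Fin n → ℝ) : S *ᵥ S⁻¹ *ᵥ u = u := by
  have hdet : S.det ≠ 0 := fun h => by
    obtain ⟨x, hx, hx0⟩ := Matrix.exists_mulVec_eq_zero_iff.mpr h
    simpa [qf, hx0] using hS.2 x hx
  rw [mulVec_mulVec, Matrix.mul_nonsing_inv _ (isUnit_iff_ne_zero.mpr hdet), one_mulVec]

theorem IsPosForm.qf_inv {n : ℕ} {S : Matrix (Fin n) (Fin n) ℝ} (hS : IsPosForm S)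
    (u : Fin n → ℝ) : qf S⁻¹ u = qf S (S⁻¹ *ᵥ u) := by
  rw [qf, qf, hS.mulVec_inv, dotProduct_comm]

theorem IsPosForm.inv {n : ℕ} {S : Matrix (Fin n) (Fin n) ℝ} (hS : IsPosForm S) :
    IsPosForm S⁻¹ := by
  refine ⟨by rw [Matrix.IsSymm, Matrix.transpose_nonsing_inv, hS.1], fun u hu => ?_⟩
  rw [hS.qf_inv]
  exact hS.2 _ fun h => hu (by rw [← hS.mulVec_inv u, h, mulVec_zero])

/-! ### Splitting off a square -/

section Schur

variable {n : ℕ} (S : Matrix (Fin (n + 1)) (Fin (n + 1)) ℝ)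

/-- The first row divided by the first entry. -/
def rowRatio : Fin n → ℝ := fun j => S 0 j.succ / S 0 0

/-- The Schur complement of the first entry. -/
def schur : Matrix (Fin n) (Fin n) ℝ :=
  Matrix.of fun i j => S i.succ j.succ - S 0 0 * rowRatio S i * rowRatio S j

variable {S}

theorem IsPosForm.diag_pos (hS : IsPosForm S) : 0 < S 0 0 := by
  have h := hS.2 (Pi.single 0 1) (by simp)
  simpa [qf] using h

theorem mulVec_cons_zero (h0 : S 0 0 ≠ 0) (y : ℝ) (y' : Fin n → ℝ) :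
    (S *ᵥ Fin.cons y y') 0 = S 0 0 * (y + rowRatio S ⬝ᵥ y') := by
  have h : ∀ j : Fin n, S 0 0 * (rowRatio S j * y' j) = S 0 j.succ * y' j := fun j => by
    rw [rowRatio, ← mul_assoc, mul_div_cancel₀ _ h0]
  simp only [mulVec, dotProduct, Fin.sum_univ_succ, Fin.cons_zero, Fin.cons_succ, mul_add,
    Finset.mul_sum, h]

theorem mulVec_cons_succ (hS : S.IsSymm) (h0 : S 0 0 ≠ 0) (y : ℝ) (y' : Fin n → ℝ) (i : Fin n) :
    (S *ᵥ Fin.cons y y') i.succ =
      S 0 0 * rowRatio S i * (y + rowRatio S ⬝ᵥ y') + (schur S *ᵥ y') i := by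
  have h : S 0 0 * rowRatio S i = S i.succ 0 := by
    rw [rowRatio, mul_div_cancel₀ _ h0, hS.apply]
  simp only [mulVec, dotProduct, Fin.sum_univ_succ, Fin.cons_zero, Fin.cons_succ, schur,
    Matrix.of_apply, sub_mul, Finset.sum_sub_distrib, mul_add, Finset.mul_sum, h]
  simp only [mul_assoc]
  ring

theorem qf_cons (hS : S.IsSymm) (h0 : S 0 0 ≠ 0) (y : ℝ) (y' : Fin n → ℝ) :
    qf S (Fin.cons y y') = S 0 0 * (y + rowRatio S ⬝ᵥ y') ^ 2 + qf (schur S) y' := by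
  rw [qf, dotProduct, Fin.sum_univ_succ]
  simp only [Fin.cons_zero, Fin.cons_succ, mulVec_cons_zero h0, mulVec_cons_succ hS h0]
  generalize hT : y + rowRatio S ⬝ᵥ y' = T
  have h : ∑ i, y' i * (S 0 0 * rowRatio S i * T) = S 0 0 * T * (rowRatio S ⬝ᵥ y') := by
    simp only [dotProduct, Finset.mul_sum]
    exact Finset.sum_congr rfl fun i _ => by ring
  simp only [mul_add, Finset.sum_add_distrib, h]
  rw [show ∑ i, y' i * (schur S *ᵥ y') i = qf (schur S) y' from rfl, ← hT]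
  ring

theorem IsPosForm.schur_pos (hS : IsPosForm S) : IsPosForm (schur S) := by
  refine ⟨Matrix.IsSymm.ext fun i j => ?_, fun y hy => ?_⟩
  · simp only [schur, Matrix.of_apply, hS.1.apply i.succ j.succ]
    ring
  · have h := hS.2 (Fin.cons (-(rowRatio S ⬝ᵥ y)) y) fun h =>
      hy (funext fun i => by simpa using congrFun h i.succ)
    rw [qf_cons hS.1 hS.diag_pos.ne'] at h
    simpa using h

theorem IsPosForm.qf_inv_cons (hS : IsPosForm S) (u : ℝ) (u' : Fin n → ℝ) :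
    qf S⁻¹ (Fin.cons u u') =
      u ^ 2 / S 0 0 + qf (schur S)⁻¹ (fun i => u' i - u * rowRatio S i) := by
  have h0 := hS.diag_pos.ne'
  obtain ⟨y, y', hy⟩ : ∃ y y', S⁻¹ *ᵥ Fin.cons u u' = Fin.cons y y' :=
    ⟨_, _, (Fin.cons_self_tail _).symm⟩
  have h1 := hS.mulVec_inv (Fin.cons u u')
  rw [hy] at h1
  have hu : S 0 0 * (y + rowRatio S ⬝ᵥ y') = u := by
    rw [← mulVec_cons_zero h0, h1, Fin.cons_zero]
  have hu' : (fun i => u' i - u * rowRatio S i) = schur S *ᵥ y' := funext fun i => by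
    have h2 := congrFun h1 i.succ
    rw [mulVec_cons_succ hS.1 h0, Fin.cons_succ] at h2
    rw [← h2, ← hu]
    ring
  rw [hS.qf_inv, hy, qf_cons hS.1 h0, hS.schur_pos.qf_inv, hu', ← hu]
  congr 1
  · field_simp
  · congr 1
    refine ((Matrix.mulVec_injective_iff_isUnit.mpr ?_) (hS.schur_pos.mulVec_inv _)).symm
    exact Matrix.mulVec_surjective_iff_isUnit.mp fun w => ⟨_, hS.schur_pos.mulVec_inv w⟩

end Schur

theorem cons_cast_add {n : ℕ} (x : ℤ) (x' : Fin n → ℤ) (v : Fin (n + 1) → ℝ) :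
    (fun i => ((Fin.cons x x' : Fin (n + 1) → ℤ) i : ℝ) + v i) =
      Fin.cons ((x : ℝ) + v 0) (fun i => (x' i : ℝ) + v i.succ) :=
  funext fun i => Fin.cases (by simp) (fun j => by simp) i

theorem cpow_half_ofReal_mul {a : ℝ} (ha : 0 < a) {w : ℂ} (hw : w ≠ 0) :
    ((a : ℂ) * w) ^ (1 / 2 : ℂ) = (a : ℂ) ^ (1 / 2 : ℂ) * w ^ (1 / 2 : ℂ) := by
  have ha' : (a : ℂ) ≠ 0 := Complex.ofReal_ne_zero.2 ha.ne'
  rw [Complex.cpow_def_of_ne_zero (mul_ne_zero ha' hw), Complex.cpow_def_of_ne_zero ha',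
    Complex.cpow_def_of_ne_zero hw, ← Complex.exp_add, Complex.log_ofReal_mul ha hw,
    Complex.ofReal_log ha.le, add_mul]

/-- Poisson summation with a phase. -/
theorem IsPosForm.exists_poisson_phase : ∀ {n : ℕ} {S : Matrix (Fin n) (Fin n) ℝ}, IsPosForm S →
    ∃ C : ℂ, ∀ z : ℂ, 0 < z.im → ∀ v ζ : Fin n → ℝ,
      ∑' x : Fin n → ℤ, cexp (π * I * z * (qf S (fun i => (x i : ℝ) + v i) : ℂ) +
          2 * π * I * ((∑ i, ζ i * ((x i : ℝ) + v i) : ℝ) : ℂ)) =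
        C * (1 / (-I * z) ^ (1 / 2 : ℂ)) ^ n * ∑' w : Fin n → ℤ,
          cexp (2 * π * I * ((∑ i, (w i : ℝ) * v i : ℝ) : ℂ)) *
          cexp (-(π * I) * (qf S⁻¹ (fun i => (w i : ℝ) + -ζ i) : ℂ) / z)
  | 0, S, _ => ⟨1, fun z _ v ζ => by simp [qf, tsum_fintype]⟩
  | n + 1, S, hS => by
    obtain ⟨C, hC⟩ := IsPosForm.exists_poisson_phase hS.schur_pos
    refine ⟨1 / (S 0 0 : ℂ) ^ (1 / 2 : ℂ) * C, fun z hz v ζ => ?_⟩
    set a := S 0 0
    set r := rowRatio S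
    have ha : 0 < a := hS.diag_pos
    have hz0 : z ≠ 0 := fun h => by simp [h] at hz
    have ha0 : (a : ℂ) ≠ 0 := Complex.ofReal_ne_zero.2 ha.ne'
    have haz : 0 < ((a : ℂ) * z).im := by rw [Complex.im_ofReal_mul]; exact mul_pos ha hz
    let u : (Fin n → ℤ) → Fin n → ℝ := fun x i => (x i : ℝ) + v i.succ
    let F : (Fin n → ℤ) → ℂ := fun x =>
      cexp (π * I * z * (qf (schur S) (u x) : ℂ) +
        2 * π * I * ((∑ i, (ζ i.succ - ζ 0 * r i) * u x i : ℝ) : ℂ))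
    let G : (Fin n → ℤ) → ℤ → ℂ := fun x m =>
      cexp (2 * π * I * m * ((v 0 + r ⬝ᵥ u x : ℝ) : ℂ)) *
        cexp (-(π * I) * ((m : ℂ) - (ζ 0 : ℂ)) ^ 2 / ((a : ℂ) * z)) * F x
    let T : (Fin (n + 1) → ℤ) → ℂ := fun x =>
      cexp (π * I * z * (qf S (fun i => (x i : ℝ) + v i) : ℂ) +
        2 * π * I * ((∑ i, ζ i * ((x i : ℝ) + v i) : ℝ) : ℂ))
    let W : (Fin (n + 1) → ℤ) → ℂ := fun w =>
      cexp (2 * π * I * ((∑ i, (w i : ℝ) * v i : ℝ) : ℂ)) *
        cexp (-(π * I) * (qf S⁻¹ (fun i => (w i : ℝ) + -ζ i) : ℂ) / z)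
    have hT : Summable fun p : (Fin n → ℤ) × ℤ => T (Fin.cons p.2 p.1) :=
      (((Equiv.prodComm _ _).trans (Fin.consEquiv fun _ => ℤ)).summable_iff (f := T)).mpr
        (hS.summable_gauss hz v fun x => ∑ i, ζ i * ((x i : ℝ) + v i))
    have hW : Summable fun p : ℤ × (Fin n → ℤ) => W (Fin.cons p.1 p.2) := by
      refine ((Fin.consEquiv fun _ => ℤ).summable_iff (f := W)).mpr
        ((hS.inv.summable_gauss (im_neg_one_div hz) (fun i => -ζ i)
          fun w => ∑ i, (w i : ℝ) * v i).congr fun w => ?_)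
      show _ = cexp _ * cexp _
      rw [← Complex.exp_add]
      congr 1
      ring
    have hG : Summable (Function.uncurry G) := by
      refine Summable.of_norm (((hS.schur_pos.summable_exp (mul_pos Real.pi_pos hz)
        fun i => v i.succ).mul_of_nonneg
        (summable_exp_sq (mul_pos Real.pi_pos (im_neg_one_div haz)) (-ζ 0))
        (fun _ => (Real.exp_pos _).le) fun _ => (Real.exp_pos _).le).congr fun p => ?_)
      show _ = ‖G p.1 p.2‖
      simp only [G, F, norm_mul]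
      rw [show 2 * (π : ℂ) * I * (p.2 : ℂ) * ((v 0 + r ⬝ᵥ u p.1 : ℝ) : ℂ) =
          2 * π * I * (((p.2 : ℝ) * (v 0 + r ⬝ᵥ u p.1) : ℝ) : ℂ) by push_cast; ring,
        norm_cexp_phase, one_mul, norm_cexp_gauss,
        show -(π * I) * ((p.2 : ℂ) - (ζ 0 : ℂ)) ^ 2 / ((a : ℂ) * z) =
          π * I * (-1 / ((a : ℂ) * z)) * ((((p.2 : ℝ) + -ζ 0) ^ 2 : ℝ) : ℂ) +
            2 * π * I * ((0 : ℝ) : ℂ) by push_cast; ring,
        norm_cexp_gauss, mul_comm]
    have hinner : ∀ x : Fin n → ℤ, ∑' x₀ : ℤ, T (Fin.cons x₀ x) =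
        1 / (-I * ((a : ℂ) * z)) ^ (1 / 2 : ℂ) * ∑' m : ℤ, G x m := by
      intro x
      have h := tsum_exp_shift haz ((v 0 + r ⬝ᵥ u x : ℝ) : ℂ) (ζ 0 : ℂ)
      simp only [G]
      rw [tsum_mul_right, ← mul_assoc, ← h, ← tsum_mul_right]
      refine tsum_congr fun x₀ => ?_
      have e1 : qf S (fun i => ((Fin.cons x₀ x : Fin (n + 1) → ℤ) i : ℝ) + v i) =
          a * ((x₀ : ℝ) + v 0 + r ⬝ᵥ u x) ^ 2 + qf (schur S) (u x) := by
        rw [cons_cast_add, qf_cons hS.1 ha.ne']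
      have e2 : ∑ i, ζ i * (((Fin.cons x₀ x : Fin (n + 1) → ℤ) i : ℝ) + v i) =
          ζ 0 * ((x₀ : ℝ) + v 0) + ∑ i, ζ i.succ * u x i := by
        rw [Fin.sum_univ_succ]
        simp only [Fin.cons_zero, Fin.cons_succ, u]
      have hsum : ∑ i, (ζ i.succ - ζ 0 * r i) * u x i =
          (∑ i, ζ i.succ * u x i) - ζ 0 * (r ⬝ᵥ u x) := by
        simp only [sub_mul, Finset.sum_sub_distrib, dotProduct, Finset.mul_sum, mul_assoc]
      show cexp _ = _
      simp only [F, ← Complex.exp_add]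
      rw [e1, e2, hsum]
      generalize ∑ i, ζ i.succ * u x i = A
      congr 1
      push_cast
      ring
    have hdual : ∀ m : ℤ, ∑' x : Fin n → ℤ, G x m =
        C * (1 / (-I * z) ^ (1 / 2 : ℂ)) ^ n * ∑' w : Fin n → ℤ, W (Fin.cons m w) := by
      intro m
      have h := hC z hz (fun i => v i.succ) fun i => ζ i.succ + ((m : ℝ) - ζ 0) * r i
      have e : ∀ x, G x m = cexp (2 * π * I * ((m : ℝ) * v 0 : ℝ)) *
          cexp (-(π * I) * ((m : ℂ) - (ζ 0 : ℂ)) ^ 2 / ((a : ℂ) * z)) *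
          cexp (π * I * z * (qf (schur S) (u x) : ℂ) +
            2 * π * I * ((∑ i, (ζ i.succ + ((m : ℝ) - ζ 0) * r i) * u x i : ℝ) : ℂ)) := by
        intro x
        simp only [G, F, ← Complex.exp_add]
        congr 1
        have hsum : ∑ i, (ζ i.succ + ((m : ℝ) - ζ 0) * r i) * u x i =
            (∑ i, (ζ i.succ - ζ 0 * r i) * u x i) + (m : ℝ) * (r ⬝ᵥ u x) := by
          simp only [dotProduct, Finset.mul_sum, ← Finset.sum_add_distrib]
          exact Finset.sum_congr rfl fun i _ => by ring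
        rw [hsum]
        push_cast
        ring
      rw [tsum_congr e, tsum_mul_left, h, mul_left_comm, ← tsum_mul_left]
      refine congrArg _ (tsum_congr fun w => ?_)
      have e1 : qf S⁻¹ (fun i => ((Fin.cons m w : Fin (n + 1) → ℤ) i : ℝ) + -ζ i) =
          ((m : ℝ) - ζ 0) ^ 2 / a +
            qf (schur S)⁻¹ (fun i => (w i : ℝ) + -(ζ i.succ + ((m : ℝ) - ζ 0) * r i)) := by
        rw [cons_cast_add m w fun i => -ζ i, hS.qf_inv_cons, ← sub_eq_add_neg]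
        congr 2
        funext i
        ring
      have e2 : ∑ i, ((Fin.cons m w : Fin (n + 1) → ℤ) i : ℝ) * v i =
          (m : ℝ) * v 0 + ∑ i, (w i : ℝ) * v i.succ := by
        rw [Fin.sum_univ_succ]
        simp only [Fin.cons_zero, Fin.cons_succ]
      show _ = cexp _ * cexp _
      rw [e1, e2]
      simp only [← Complex.exp_add]
      generalize ∑ i, (w i : ℝ) * v i.succ = A
      generalize qf (schur S)⁻¹ _ = B
      congr 1
      push_cast
      field_simp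
      ring
    show ∑' x, T x = _ * ∑' w, W w
    rw [← ((Equiv.prodComm _ _).trans (Fin.consEquiv fun _ => ℤ)).tsum_eq T,
      ← (Fin.consEquiv fun _ => ℤ).tsum_eq W]
    show ∑' p : (Fin n → ℤ) × ℤ, T (Fin.cons p.2 p.1) =
      _ * ∑' p : ℤ × (Fin n → ℤ), W (Fin.cons p.1 p.2)
    rw [hT.tsum_prod, hW.tsum_prod, tsum_congr hinner, tsum_mul_left, ← hG.tsum_comm,
      tsum_congr hdual, tsum_mul_left, show -I * ((a : ℂ) * z) = (a : ℂ) * (-I * z) by ring,
      cpow_half_ofReal_mul ha (mul_ne_zero (neg_ne_zero.2 I_ne_zero) hz0)]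
    dsimp only
    rw [pow_succ, ← one_div_mul_one_div]
    ring

/-- Poisson summation. -/
theorem IsPosForm.exists_poisson {n : ℕ} {S : Matrix (Fin n) (Fin n) ℝ} (hS : IsPosForm S) :
    ∃ C : ℂ, ∀ z : ℂ, 0 < z.im → ∀ v : Fin n → ℝ,
      ∑' x : Fin n → ℤ, cexp (π * I * z * (qf S (fun i => (x i : ℝ) + v i) : ℂ)) =
        C * (1 / (-I * z) ^ (1 / 2 : ℂ)) ^ n * ∑' w : Fin n → ℤ,
          cexp (2 * π * I * ((∑ i, (w i : ℝ) * v i : ℝ) : ℂ)) *
          cexp (-(π * I) * (qf S⁻¹ (fun i => (w i : ℝ)) : ℂ) / z) := by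
  obtain ⟨C, hC⟩ := hS.exists_poisson_phase
  refine ⟨C, fun z hz v => ?_⟩
  simpa using hC z hz v 0

end Fermat.Agent.Two.Theta.Quat
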