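import Mathlib.Topology.Algebra.Order.Archimedean
import Mathlib.Data.Real.Basic
import Mathlib.RingTheory.Int.Basic
import Fermat.Agent.Two.Theta.Quat.Poisson

/-!
# Even positive quaternary forms
-/

set_option autoImplicit false

noncomputable section

open Matrix

namespace Fermat.Agent.Two.Theta.Quat

/-- An even positive quaternary form of level `N` whose determinant is a square. -/
structure EvenForm where
  /-- The Gram matrix. -/
  A : Matrix (Fin 4) (Fin 4) ℤ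
  /-- `N` times the inverse. -/
  adj : Matrix (Fin 4) (Fin 4) ℤ
  /-- The level. -/
  N : ℕ
  N_ne_zero : N ≠ 0
  symm : A.IsSymm
  even : ∀ i, Even (A i i)
  pos : ∀ x : Fin 4 → ℤ, x ≠ 0 → 0 < x ⬝ᵥ A *ᵥ x
  mul_adj : A * adj = (N : ℤ) • 1
  adj_even : ∀ i, Even (adj i i)
  det_sq : IsSquare A.det

namespace EvenForm

variable (Q : EvenForm)

instance neZero_N : NeZero Q.N := ⟨Q.N_ne_zero⟩

theorem N_pos : (0 : ℝ) < Q.N := by exact_mod_cast Nat.pos_of_ne_zero Q.N_ne_zero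

theorem adj_symm : Q.adj.IsSymm := by
  have h : Q.adjᵀ * Q.A = (Q.N : ℤ) • 1 := by
    have := congrArg transpose Q.mul_adj
    rwa [transpose_mul, Q.symm.eq, transpose_smul, transpose_one] at this
  have h2 : (Q.N : ℤ) • Q.adjᵀ = (Q.N : ℤ) • Q.adj := by
    calc (Q.N : ℤ) • Q.adjᵀ = Q.adjᵀ * (Q.A * Q.adj) := by rw [Q.mul_adj, Matrix.mul_smul, Matrix.mul_one]
      _ = _ := by rw [← Matrix.mul_assoc, h, Matrix.smul_mul, Matrix.one_mul]
  exact smul_right_injective _ (Nat.cast_ne_zero.2 Q.N_ne_zero : (Q.N : ℤ) ≠ 0) h2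

theorem adj_mul : Q.adj * Q.A = (Q.N : ℤ) • 1 := by
  have := congrArg transpose Q.mul_adj
  rwa [transpose_mul, Q.symm.eq, Q.adj_symm.eq, transpose_smul, transpose_one] at this

theorem det_mul_det : Q.A.det * Q.adj.det = (Q.N : ℤ) ^ 4 := by
  rw [← det_mul, Q.mul_adj, det_smul, det_one, Fintype.card_fin, mul_one]

theorem det_ne_zero : Q.A.det ≠ 0 := fun h => by
  have := Q.det_mul_det
  rw [h, zero_mul] at this
  exact pow_ne_zero 4 (Nat.cast_ne_zero.2 Q.N_ne_zero) this.symm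

/-- The dual form scaled to be even. -/
def dual : EvenForm where
  A := Q.adj
  adj := Q.A
  N := Q.N
  N_ne_zero := Q.N_ne_zero
  symm := Q.adj_symm
  even := Q.adj_even
  mul_adj := Q.adj_mul
  adj_even := Q.even
  det_sq := by
    obtain ⟨a, ha⟩ := Q.det_sq
    have h := Q.det_mul_det
    rw [ha] at h
    have ha0 : a ≠ 0 := by
      rintro rfl
      rw [zero_mul, zero_mul] at h
      exact pow_ne_zero 4 (Nat.cast_ne_zero.2 Q.N_ne_zero) h.symm
    obtain ⟨k, hk⟩ : a ∣ (Q.N : ℤ) ^ 2 :=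
      (Int.pow_dvd_pow_iff (n := 2) two_ne_zero).1 ⟨Q.adj.det, by linear_combination -h⟩
    refine ⟨k, mul_left_cancel₀ (mul_ne_zero ha0 ha0) ?_⟩
    linear_combination h + ((Q.N : ℤ) ^ 2 + a * k) * hk
  pos x hx := by
    have hy : Q.adj *ᵥ x ≠ 0 := fun h => by
      have := congrArg (fun y => Q.A *ᵥ y) h
      simp only [mulVec_mulVec, Q.mul_adj, smul_mulVec, one_mulVec, mulVec_zero] at this
      exact hx ((smul_eq_zero.1 this).resolve_left (Nat.cast_ne_zero.2 Q.N_ne_zero))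
    have h := Q.pos _ hy
    rw [mulVec_mulVec, Q.mul_adj, smul_mulVec, one_mulVec, dotProduct_smul,
      dotProduct_comm, smul_eq_mul] at h
    exact pos_of_mul_pos_right h (Int.natCast_nonneg _)

/-- The value `x A x / 2`. -/
def eval (x : Fin 4 → ℤ) : ℤ := (x ⬝ᵥ Q.A *ᵥ x) / 2

theorem two_dvd (x : Fin 4 → ℤ) : 2 ∣ x ⬝ᵥ Q.A *ᵥ x := by
  obtain ⟨a, ha⟩ := Q.even 0
  obtain ⟨b, hb⟩ := Q.even 1
  obtain ⟨c, hc⟩ := Q.even 2
  obtain ⟨d, hd⟩ := Q.even 3
  refine ⟨a * x 0 ^ 2 + b * x 1 ^ 2 + c * x 2 ^ 2 + d * x 3 ^ 2 + Q.A 0 1 * x 0 * x 1 +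
    Q.A 0 2 * x 0 * x 2 + Q.A 0 3 * x 0 * x 3 + Q.A 1 2 * x 1 * x 2 + Q.A 1 3 * x 1 * x 3 +
    Q.A 2 3 * x 2 * x 3, ?_⟩
  simp only [mulVec, dotProduct, Fin.sum_univ_four, ha, hb, hc, hd, Q.symm.apply 0 1,
    Q.symm.apply 0 2, Q.symm.apply 0 3, Q.symm.apply 1 2, Q.symm.apply 1 3, Q.symm.apply 2 3]
  ring

theorem two_mul_eval (x : Fin 4 → ℤ) : 2 * Q.eval x = x ⬝ᵥ Q.A *ᵥ x :=
  Int.mul_ediv_cancel' (Q.two_dvd x)

theorem eval_add (x y : Fin 4 → ℤ) :
    Q.eval (x + y) = Q.eval x + Q.eval y + x ⬝ᵥ Q.A *ᵥ y := by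
  refine mul_left_cancel₀ (two_ne_zero (α := ℤ)) ?_
  rw [mul_add, mul_add, two_mul_eval, two_mul_eval, two_mul_eval, mulVec_add, add_dotProduct,
    dotProduct_add, dotProduct_add]
  have : y ⬝ᵥ Q.A *ᵥ x = x ⬝ᵥ Q.A *ᵥ y := by
    rw [dotProduct_mulVec, ← mulVec_transpose, Q.symm.eq, dotProduct_comm]
  rw [this]
  ring

theorem eval_smul (c : ℤ) (x : Fin 4 → ℤ) : Q.eval (c • x) = c ^ 2 * Q.eval x := by
  refine mul_left_cancel₀ (two_ne_zero (α := ℤ)) ?_
  rw [two_mul_eval, mulVec_smul, smul_dotProduct, dotProduct_smul, ← two_mul_eval, smul_eq_mul,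
    smul_eq_mul]
  ring

/-- The Gram matrix over the reals. -/
def AR : Matrix (Fin 4) (Fin 4) ℝ := Q.A.map (Int.castRingHom ℝ)

theorem qf_AR (x : Fin 4 → ℤ) : qf Q.AR (fun i => (x i : ℝ)) = 2 * (Q.eval x : ℝ) := by
  have := congrArg (Int.cast : ℤ → ℝ) (Q.two_mul_eval x)
  push_cast at this
  rw [this, qf, AR]
  simp [mulVec, dotProduct]

theorem AR_symm : Q.AR.IsSymm := Q.symm.map _

theorem qf_AR_nonneg (x : Fin 4 → ℝ) : 0 ≤ qf Q.AR x := by
  have hden : DenseRange (Pi.map fun (_ : Fin 4) (r : ℚ) => (r : ℝ)) :=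
    DenseRange.piMap fun _ => Rat.denseRange_cast
  refine hden.induction_on (p := fun y => 0 ≤ qf Q.AR y) x ?_ fun r => ?_
  · refine isClosed_le continuous_const ?_
    show Continuous fun y => y ⬝ᵥ Q.AR *ᵥ y
    unfold mulVec dotProduct
    fun_prop
  · set D : ℕ := ∏ i, (r i).den
    have hD : (0 : ℝ) < D := by
      exact_mod_cast Finset.prod_pos fun i _ => (r i).den_pos
    obtain ⟨z, hz⟩ : ∃ z : Fin 4 → ℤ, ∀ i, (z i : ℝ) = (D : ℝ) * (r i : ℝ) := by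
      refine ⟨fun i => (r i).num * ((D / (r i).den : ℕ) : ℤ), fun i => ?_⟩
      have hdvd : (r i).den ∣ D := Finset.dvd_prod_of_mem _ (Finset.mem_univ i)
      have : ((r i).den : ℝ) ≠ 0 := Nat.cast_ne_zero.2 (r i).den_nz
      rw [Rat.cast_def, Int.cast_mul, Int.cast_natCast, Nat.cast_div hdvd this]
      ring
    have hz0 : (0 : ℝ) ≤ qf Q.AR (fun i => (z i : ℝ)) := by
      rw [qf_AR]
      rcases eq_or_ne z 0 with rfl | hne
      · simp [eval]
      · have := Q.pos z hne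
        rw [← two_mul_eval] at this
        exact_mod_cast this.le
    rw [show (fun i => (z i : ℝ)) = (D : ℝ) • Pi.map (fun _ (q : ℚ) => (q : ℝ)) r from
      funext fun i => by simp [hz, Pi.map], qf, mulVec_smul, smul_dotProduct, dotProduct_smul,
      smul_eq_mul, smul_eq_mul] at hz0
    exact nonneg_of_mul_nonneg_right (nonneg_of_mul_nonneg_right hz0 hD) hD

theorem AR_mul_adj : Q.AR * Q.dual.AR = (Q.N : ℝ) • 1 := by
  rw [AR, AR, ← Matrix.map_mul]
  show (Q.A * Q.adj).map _ = _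
  rw [Q.mul_adj]
  ext i j
  simp only [Matrix.map_apply, Matrix.smul_apply, Matrix.one_apply]
  split_ifs <;> simp

theorem inv_AR : Q.AR⁻¹ = (Q.N : ℝ)⁻¹ • Q.dual.AR := by
  refine Matrix.inv_eq_right_inv ?_
  rw [Matrix.mul_smul, AR_mul_adj, smul_smul, inv_mul_cancel₀ Q.N_pos.ne', one_smul]

theorem isPosForm_AR : IsPosForm Q.AR := by
  refine ⟨Q.AR_symm, fun x hx => (Q.qf_AR_nonneg x).lt_of_ne fun h => hx ?_⟩
  have hB : ∀ y : Fin 4 → ℝ, x ⬝ᵥ Q.AR *ᵥ y = 0 := fun y => by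
    have hs : y ⬝ᵥ Q.AR *ᵥ x = x ⬝ᵥ Q.AR *ᵥ y := by
      rw [dotProduct_mulVec, ← mulVec_transpose, Q.AR_symm.eq, dotProduct_comm]
    have hexp : ∀ t : ℝ, 0 ≤ qf Q.AR y * (t * t) + (2 * (x ⬝ᵥ Q.AR *ᵥ y)) * t + 0 := fun t => by
      have := Q.qf_AR_nonneg (x + t • y)
      simp only [qf, mulVec_add, mulVec_smul, add_dotProduct, dotProduct_add, smul_dotProduct,
        dotProduct_smul, smul_eq_mul, hs] at this h ⊢
      linarith
    have := discrim_le_zero hexp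
    rw [discrim] at this
    nlinarith [sq_nonneg (x ⬝ᵥ Q.AR *ᵥ y)]
  have h0 : Q.AR *ᵥ x = 0 := funext fun i => by
    have := hB (Pi.single i 1)
    rw [dotProduct_mulVec, ← mulVec_transpose, Q.AR_symm.eq, dotProduct_single_one] at this
    exact this
  have := congrArg (fun y => Q.dual.AR *ᵥ y) h0
  simp only [mulVec_mulVec, mulVec_zero, show Q.dual.AR * Q.AR = (Q.N : ℝ) • 1 from
    Q.dual.AR_mul_adj, smul_mulVec, one_mulVec] at this
  exact (smul_eq_zero.1 this).resolve_left Q.N_pos.ne'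

theorem eval_nonneg (x : Fin 4 → ℤ) : 0 ≤ Q.eval x := by
  have h := Q.qf_AR_nonneg fun i => (x i : ℝ)
  rw [qf_AR] at h
  exact_mod_cast (nonneg_of_mul_nonneg_right h two_pos : (0 : ℝ) ≤ (Q.eval x : ℝ))

/-- Finitely many vectors take values below a bound. -/
theorem finite_eval_le (c : ℤ) : {x : Fin 4 → ℤ | Q.eval x ≤ c}.Finite := by
  obtain ⟨δ, hδ, hle⟩ := Q.isPosForm_AR.exists_coercive
  set b : ℤ := ⌈2 * (c : ℝ) / δ⌉
  refine (Set.Finite.pi fun _ : Fin 4 => Set.finite_Icc (-b) b).subset fun x hx => ?_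
  intro i _
  have h := hle fun i => (x i : ℝ)
  rw [qf_AR] at h
  have hx' : (Q.eval x : ℝ) ≤ c := by exact_mod_cast hx
  have h1 : ((x i ^ 2 : ℤ) : ℝ) ≤ b := by
    refine le_trans ?_ (Int.le_ceil _)
    rw [le_div_iff₀ hδ]
    push_cast
    nlinarith [Finset.single_le_sum (fun j _ => sq_nonneg (x j : ℝ)) (Finset.mem_univ i)]
  have h2 : x i ^ 2 ≤ b := by exact_mod_cast h1
  have := Int.le_self_sq (x i)
  have := Int.le_self_sq (-x i)
  rw [neg_sq] at this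
  exact ⟨by linarith, by linarith⟩

theorem finite_eval_eq (n : ℤ) : {x : Fin 4 → ℤ | Q.eval x = n}.Finite :=
  (Q.finite_eval_le n).subset fun _ h => le_of_eq h

end EvenForm

end Fermat.Agent.Two.Theta.Quat
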