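import Mathlib.LinearAlgebra.Matrix.BilinearForm
import Mathlib.LinearAlgebra.QuadraticForm.Basic
import Fermat.Agent.Two.Theta.Gauss
import Fermat.Agent.Two.Theta.Quat.Basic

/-!
# Gauss sums of quaternary forms with square determinant
-/

set_option autoImplicit false

noncomputable section

open Matrix

namespace Fermat.Agent.Two.Theta.Quat

variable {p : ℕ} [Fact p.Prime]

/-- The Gauss sum of a symmetric matrix over `𝔽_p` with square determinant is `p ^ 2`. -/
theorem sum_stdAddChar_matrix (hp2 : p ≠ 2) (S : Matrix (Fin 4) (Fin 4) (ZMod p))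
    (hS : S.IsSymm) (hdet : S.det ≠ 0) (hsq : IsSquare S.det) :
    ∑ x : Fin 4 → ZMod p, (ZMod.stdAddChar (x ⬝ᵥ S *ᵥ x) : ℂ) = (p : ℂ) ^ 2 := by
  classical
  have h2 : (2 : ZMod p) ≠ 0 := Ring.two_ne_zero (ringChar_ne_two hp2)
  have : Invertible (2 : ZMod p) := invertibleOfNonzero h2
  have hB : LinearMap.IsSymm (Matrix.toBilin' S) := by
    refine ⟨fun x y => ?_⟩
    rw [RingHom.id_apply]
    rw [Matrix.toBilin'_apply', Matrix.toBilin'_apply', dotProduct_mulVec, ← mulVec_transpose,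
      hS.eq, dotProduct_comm]
  obtain ⟨v₀, hv₀⟩ := LinearMap.BilinForm.exists_orthogonal_basis hB
  let e : Fin (Module.finrank (ZMod p) (Fin 4 → ZMod p)) ≃ Fin 4 :=
    finCongr (Module.finrank_fin_fun _)
  set v := v₀.reindex e with hv
  set P : Matrix (Fin 4) (Fin 4) (ZMod p) := Matrix.of fun i j => v j i with hP
  have hPv : ∀ c, P *ᵥ c = v.equivFun.symm c := fun c => by
    ext i
    simp [hP, mulVec, dotProduct, Module.Basis.equivFun_symm_apply, mul_comm]
  have hPinj : Function.Injective P.mulVec := fun a b h => v.equivFun.symm.injective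
    (by rw [← hPv, ← hPv]; exact h)
  have hPdet : P.det ≠ 0 := ((Matrix.isUnit_iff_isUnit_det P).1
    (Matrix.mulVec_injective_iff_isUnit.1 hPinj)).ne_zero
  set a : Fin 4 → ZMod p := fun i => (Pᵀ * S * P) i i with ha
  have hdiag : Pᵀ * S * P = Matrix.diagonal a := by
    ext i j
    rcases eq_or_ne i j with rfl | hij
    · simp [ha]
    · rw [Matrix.diagonal_apply_ne _ hij]
      have := hv₀ (i := e.symm i) (j := e.symm j) (fun h => hij (e.symm.injective h))
      replace this : Matrix.toBilin' S (v₀ (e.symm i)) (v₀ (e.symm j)) = 0 := this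
      rw [Matrix.toBilin'_apply'] at this
      rw [Matrix.mul_assoc, ← this]
      simp [hP, hv, Matrix.mul_apply, mulVec, dotProduct]
  have hprod : ∏ i, a i = P.det * P.det * S.det := by
    rw [← det_diagonal, ← hdiag, det_mul, det_mul, det_transpose]
    ring
  have hne : ∀ i, a i ≠ 0 := fun i h => mul_ne_zero (mul_ne_zero hPdet hPdet) hdet
    (by rw [← hprod]; exact Finset.prod_eq_zero (Finset.mem_univ i) h)
  calc ∑ x : Fin 4 → ZMod p, (ZMod.stdAddChar (x ⬝ᵥ S *ᵥ x) : ℂ)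
      = ∑ c : Fin 4 → ZMod p, (ZMod.stdAddChar (∑ i, a i * c i ^ 2) : ℂ) := by
        refine (Fintype.sum_bijective P.mulVec ((Finite.injective_iff_bijective).1 hPinj) _ _
          fun c => ?_).symm
        congr 1
        rw [mulVec_mulVec, show (P *ᵥ c) ⬝ᵥ (S * P) *ᵥ c = c ⬝ᵥ (Pᵀ * S * P) *ᵥ c by
          rw [Matrix.mul_assoc, ← mulVec_mulVec (M := Pᵀ), dotProduct_mulVec c Pᵀ,
            ← mulVec_transpose, transpose_transpose], hdiag]
        simp only [mulVec_diagonal, dotProduct]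
        exact Finset.sum_congr rfl fun x _ => by ring
    _ = ∏ i, ∑ t : ZMod p, (ZMod.stdAddChar (a i * t ^ 2) : ℂ) := by
        rw [Fintype.prod_sum]
        simp only [Fin.sum_univ_four, Fin.prod_univ_four, AddChar.map_add_eq_mul]
    _ = (p : ℂ) ^ 2 := by
        simp only [fun i => sum_stdAddChar_mul_sq hp2 (hne i), Finset.prod_mul_distrib,
          ← map_prod, Finset.prod_const, Finset.card_univ, Fintype.card_fin]
        obtain ⟨r, hr⟩ := hsq
        have hr0 : r ≠ 0 := fun h => hdet (by rw [hr, h, mul_zero])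
        rw [hprod, hr, show P.det * P.det * (r * r) = (P.det * r) ^ 2 by ring,
          legendreChar_sq (mul_ne_zero hPdet hr0), one_mul,
          show ∀ g : ℂ, g ^ 4 = (g ^ 2) ^ 2 from fun g => by ring, gaussSum_legendreChar_sq hp2,
          mul_pow, ← map_pow, legendreChar_sq (neg_ne_zero.2 one_ne_zero), one_mul]

namespace EvenForm

variable (Q : EvenForm)

/-- The value modulo `d`. -/
def evalZ {d : ℕ} (s : Fin 4 → ZMod d) : ZMod d := (Q.eval fun i => ((s i).val : ℤ))

theorem intCast_eval {d : ℕ} [NeZero d] (x : Fin 4 → ℤ) :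
    ((Q.eval x : ℤ) : ZMod d) = Q.evalZ fun i => (x i : ZMod d) := by
  obtain ⟨y, hy⟩ : ∃ y : Fin 4 → ℤ, x = (fun i => (((x i : ZMod d)).val : ℤ)) + (d : ℤ) • y := by
    refine ⟨fun i => x i / d, funext fun i => ?_⟩
    simp only [Pi.add_apply, Pi.smul_apply, smul_eq_mul, ZMod.val_intCast, Int.emod_add_mul_ediv]
  conv_lhs => rw [hy]
  rw [eval_add, eval_smul, mulVec_smul, dotProduct_smul, smul_eq_mul]
  push_cast
  simp [evalZ]

theorem evalZ_add {d : ℕ} [NeZero d] (s t : Fin 4 → ZMod d) :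
    Q.evalZ (s + t) =
      Q.evalZ s + Q.evalZ t + s ⬝ᵥ (Q.A.map (Int.castRingHom (ZMod d))) *ᵥ t := by
  obtain ⟨x, rfl⟩ : ∃ x : Fin 4 → ℤ, (fun i => (x i : ZMod d)) = s :=
    ⟨fun i => (s i).val, funext fun i => by simp⟩
  obtain ⟨y, rfl⟩ : ∃ y : Fin 4 → ℤ, (fun i => (y i : ZMod d)) = t :=
    ⟨fun i => (t i).val, funext fun i => by simp⟩
  rw [show (fun i => (x i : ZMod d)) + (fun i => (y i : ZMod d)) =
    fun i => ((x + y) i : ZMod d) from funext fun i => by simp, ← intCast_eval, eval_add,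
    Int.cast_add, Int.cast_add, intCast_eval, intCast_eval]
  simp [mulVec, dotProduct]

/-- The Gauss sum modulo `d`. -/
def gauss (d : ℕ) [NeZero d] (b : ℤ) : ℂ :=
  ∑ s : Fin 4 → ZMod d, ZMod.stdAddChar ((b : ZMod d) * Q.evalZ s)

/-- **The Gauss sum at an odd prime prime to the determinant.** -/
theorem gauss_prime (hp2 : p ≠ 2) (hD : ¬ (p : ℤ) ∣ Q.A.det) {b : ℤ} (hb : ¬ (p : ℤ) ∣ b) :
    Q.gauss p b = (p : ℂ) ^ 2 := by
  have h2 : (2 : ZMod p) ≠ 0 := Ring.two_ne_zero (ringChar_ne_two hp2)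
  have hb' : (b : ZMod p) / 2 ≠ 0 :=
    div_ne_zero (fun h => hb ((ZMod.intCast_zmod_eq_zero_iff_dvd _ _).1 h)) h2
  set A' := Q.A.map (Int.castRingHom (ZMod p))
  have hdetA : A'.det = (Q.A.det : ZMod p) := ((Int.castRingHom (ZMod p)).map_det Q.A).symm
  rw [gauss, ← sum_stdAddChar_matrix hp2 (((b : ZMod p) / 2) • A') ((Q.symm.map _).smul _)]
  · refine Finset.sum_congr rfl fun s _ => ?_
    obtain ⟨x, rfl⟩ : ∃ x : Fin 4 → ℤ, (fun i => (x i : ZMod p)) = s :=
      ⟨fun i => (s i).val, funext fun i => by simp⟩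
    congr 1
    rw [← intCast_eval, smul_mulVec, dotProduct_smul, smul_eq_mul]
    have := congrArg (Int.cast : ℤ → ZMod p) (Q.two_mul_eval x)
    push_cast at this
    rw [show (fun i => (x i : ZMod p)) ⬝ᵥ A' *ᵥ (fun i => (x i : ZMod p)) =
      2 * ((Q.eval x : ℤ) : ZMod p) by rw [this]; simp [A', mulVec, dotProduct]]
    field_simp
  · rw [det_smul, hdetA, Fintype.card_fin]
    exact mul_ne_zero (pow_ne_zero _ hb') fun h => hD ((ZMod.intCast_zmod_eq_zero_iff_dvd _ _).1 h)
  · rw [det_smul, hdetA, Fintype.card_fin]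
    obtain ⟨a, ha⟩ := Q.det_sq
    exact ⟨((b : ZMod p) / 2) ^ 2 * a, by rw [ha]; push_cast; ring⟩

end EvenForm

end Fermat.Agent.Two.Theta.Quat
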