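import Mathlib.NumberTheory.ModularForms.Basic
import Mathlib.NumberTheory.ModularForms.CongruenceSubgroups
import Mathlib.NumberTheory.LSeries.PrimesInAP
import Mathlib.Analysis.Complex.LocallyUniformLimit
import Fermat.Agent.Two.Theta.Quat.Gauss

/-!
# Theta series of cosets

`∑ q^{Q(x)}` over `x ≡ h` modulo `M` is sent by `γ ∈ Γ₀(N M²)` to the series of `a h`.
-/

set_option autoImplicit false

noncomputable section

open Complex Matrix CongruenceSubgroup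
open UpperHalfPlane hiding I
open scoped Real MatrixGroups ModularForm Manifold

namespace Fermat.Agent.Two.Theta.Quat

/-- Integers as a residue and a quotient. -/
def residueQuot (d : ℕ) [NeZero d] : ZMod d × ℤ ≃ ℤ where
  toFun p := (p.1.val : ℤ) + d * p.2
  invFun x := ((x : ZMod d), x / d)
  left_inv p := by
    have hd : (d : ℤ) ≠ 0 := Nat.cast_ne_zero.2 (NeZero.ne d)
    refine Prod.ext (by simp) ?_
    show ((p.1.val : ℤ) + d * p.2) / d = p.2
    rw [Int.add_mul_ediv_left _ _ hd, Int.ediv_eq_zero_of_lt (Int.natCast_nonneg _)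
      (by exact_mod_cast p.1.val_lt), zero_add]
  right_inv x := by
    show ((x : ZMod d).val : ℤ) + d * (x / d) = x
    rw [ZMod.val_intCast, Int.emod_add_mul_ediv]

/-- Vectors as residues and quotients. -/
def residueQuotPi (d : ℕ) [NeZero d] : (Fin 4 → ZMod d) × (Fin 4 → ℤ) ≃ (Fin 4 → ℤ) :=
  (Equiv.arrowProdEquivProdArrow _ _ _).symm.trans (Equiv.piCongrRight fun _ => residueQuot d)

/-- The lift of a residue vector. -/
def liftVec {d : ℕ} (s : Fin 4 → ZMod d) : Fin 4 → ℤ := fun i => ((s i).val : ℤ)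

theorem residueQuotPi_apply (d : ℕ) [NeZero d] (s : Fin 4 → ZMod d) (y : Fin 4 → ℤ) :
    residueQuotPi d (s, y) = liftVec s + (d : ℤ) • y := rfl

namespace EvenForm

variable (Q : EvenForm)

/-- The term `e(z Q(x))`. -/
def term (z : ℂ) (x : Fin 4 → ℤ) : ℂ := cexp (2 * π * I * z * (Q.eval x : ℂ))

theorem norm_term (z : ℂ) (x : Fin 4 → ℤ) :
    ‖Q.term z x‖ = Real.exp (-(2 * π * z.im * (Q.eval x : ℝ))) := by
  rw [term, Complex.norm_exp]
  congr 1
  simp [mul_comm, mul_left_comm]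

theorem norm_term_le {z : ℂ} {c : ℝ} (h : c ≤ z.im) (x : Fin 4 → ℤ) :
    ‖Q.term z x‖ ≤ ‖Q.term (c * I) x‖ := by
  rw [norm_term, norm_term, Real.exp_le_exp, neg_le_neg_iff]
  exact mul_le_mul_of_nonneg_right (mul_le_mul_of_nonneg_left (by simpa using h) (by positivity))
    (by exact_mod_cast Q.eval_nonneg _)

theorem summable_norm_term {z : ℂ} (hz : 0 < z.im) : Summable fun x => ‖Q.term z x‖ := by
  refine (Q.isPosForm_AR.summable_exp (c := π * z.im) (mul_pos Real.pi_pos hz) 0).congr fun x => ?_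
  rw [norm_term]
  simp only [Pi.zero_apply, add_zero]
  rw [qf_AR]
  ring_nf

/-- The theta series of the class of `h` modulo `M`. -/
def coset (M : ℕ) (h : Fin 4 → ℤ) (z : ℂ) : ℂ := ∑' y : Fin 4 → ℤ, Q.term z (h + (M : ℤ) • y)

variable (M : ℕ) [NeZero M]

theorem injective_coset (h : Fin 4 → ℤ) :
    Function.Injective fun y : Fin 4 → ℤ => h + (M : ℤ) • y := fun _ _ hab =>
  smul_right_injective _ (Nat.cast_ne_zero.2 (NeZero.ne M) : (M : ℤ) ≠ 0) (add_left_cancel hab)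

theorem summable_norm_coset (h : Fin 4 → ℤ) {z : ℂ} (hz : 0 < z.im) :
    Summable fun y => ‖Q.term z (h + (M : ℤ) • y)‖ :=
  (Q.summable_norm_term hz).comp_injective (injective_coset M h)

omit [NeZero M] in
theorem coset_add (h y : Fin 4 → ℤ) (z : ℂ) :
    Q.coset M (h + (M : ℤ) • y) z = Q.coset M h z := by
  conv_rhs => rw [coset, ← (Equiv.addLeft y).tsum_eq]
  refine tsum_congr fun t => ?_
  rw [Equiv.coe_addLeft, smul_add, add_assoc]

omit [NeZero M] in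
theorem coset_congr {h h' : Fin 4 → ℤ} (hh : ∀ i, (h i : ZMod M) = h' i) (z : ℂ) :
    Q.coset M h z = Q.coset M h' z := by
  choose y hy using fun i => (ZMod.intCast_eq_intCast_iff_dvd_sub _ _ _).1 (hh i)
  rw [show h' = h + (M : ℤ) • y from funext fun i => by
    simp only [Pi.add_apply, Pi.smul_apply, smul_eq_mul]; linarith [hy i], coset_add]

omit [NeZero M] in
theorem coset_neg (h : Fin 4 → ℤ) (z : ℂ) : Q.coset M (-h) z = Q.coset M h z := by
  conv_lhs => rw [coset, ← (Equiv.neg (Fin 4 → ℤ)).tsum_eq]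
  refine tsum_congr fun y => ?_
  rw [term, term, Equiv.neg_apply, smul_neg, ← neg_add, ← neg_one_zsmul (h + (M : ℤ) • y),
    eval_smul]
  norm_num

omit [NeZero M] in
theorem coset_add_int (h : Fin 4 → ℤ) (n : ℤ) (z : ℂ) :
    Q.coset M h (z + n) = Q.coset M h z := by
  refine tsum_congr fun x => ?_
  rw [term, term, Complex.exp_eq_exp_iff_exists_int]
  exact ⟨n * Q.eval (h + (M : ℤ) • x), by push_cast; ring⟩

/-- The constant of Poisson summation. -/
def const : ℂ := Classical.choose Q.isPosForm_AR.exists_poisson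

theorem qf_inv_AR (w : Fin 4 → ℤ) :
    qf Q.AR⁻¹ (fun i => (w i : ℝ)) = 2 * (Q.dual.eval w : ℝ) / Q.N := by
  rw [inv_AR, ← qf_AR, qf, qf, smul_mulVec, dotProduct_smul, smul_eq_mul, div_eq_inv_mul]

theorem poisson {z : ℂ} (hz : 0 < z.im) (v : Fin 4 → ℝ) :
    ∑' x : Fin 4 → ℤ, cexp (π * I * z * (qf Q.AR (fun i => (x i : ℝ) + v i) : ℂ)) =
      -Q.const / z ^ 2 * ∑' w : Fin 4 → ℤ,
        cexp (2 * π * I * ((∑ i, (w i : ℝ) * v i : ℝ) : ℂ)) *
          Q.dual.term (-1 / ((Q.N : ℂ) * z)) w := by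
  have hz0 : z ≠ 0 := fun h => by simp [h] at hz
  rw [const, Classical.choose_spec Q.isPosForm_AR.exists_poisson z hz v]
  have hpow : (1 / (-I * z) ^ (1 / 2 : ℂ)) ^ 4 = -1 / z ^ 2 := by
    rw [div_pow, one_pow, show ((-I * z) ^ (1 / 2 : ℂ)) ^ 4 = (((-I * z) ^ (1 / 2 : ℂ)) ^ 2) ^ 2 by
      ring, one_div (2 : ℂ), Complex.cpow_ofNat_inv_pow, mul_pow, neg_sq, I_sq]
    field_simp
  rw [hpow]
  congr 1
  · ring
  refine tsum_congr fun w => ?_
  rw [qf_inv_AR, term]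
  congr 2
  push_cast
  ring

/-- The weights of the transformed series. -/
def weight (d : ℕ) [NeZero d] (m : ℤ) (h : Fin 4 → ℤ) (w : Fin 4 → ℤ) : ℂ :=
  ∑ s : Fin 4 → ZMod d,
    ZMod.stdAddChar ((m : ZMod d) * ((Q.eval (h + (M : ℤ) • liftVec s) : ℤ) : ZMod d)) *
      cexp (2 * π * I * ((∑ i, (w i : ℂ) * ((h i : ℂ) + M * (liftVec s i : ℂ))) / (d * M)))

theorem re_two_pi_I_mul (x : ℝ) : Real.exp (2 * π * I * (x : ℂ)).re = 1 := by
  rw [show (2 : ℂ) * π * I * (x : ℂ) = ((2 * π * x : ℝ) : ℂ) * I by push_cast; ring,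
    Complex.re_ofReal_mul, Complex.I_re, mul_zero, Real.exp_zero]

omit [NeZero M] in
theorem norm_weight_le (d : ℕ) [NeZero d] (m : ℤ) (h w : Fin 4 → ℤ) :
    ‖Q.weight M d m h w‖ ≤ (d : ℝ) ^ 4 := by
  refine (norm_sum_le _ _).trans (le_of_eq ?_)
  rw [Finset.sum_congr rfl (g := fun _ => (1 : ℝ)) fun s _ => ?_]
  · simp
  rw [norm_mul, ZMod.stdAddChar_apply, Circle.norm_coe, one_mul, Complex.norm_exp]
  rw [show (∑ i, (w i : ℂ) * ((h i : ℂ) + M * (liftVec s i : ℂ))) / (d * M) =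
    (((∑ i, (w i : ℝ) * ((h i : ℝ) + M * (liftVec s i : ℝ))) / (d * M) : ℝ) : ℂ) by push_cast; rfl]
  exact re_two_pi_I_mul _

omit [NeZero M] in
theorem summable_weight_term (d : ℕ) [NeZero d] (m : ℤ) (h : Fin 4 → ℤ) {z : ℂ} (hz : 0 < z.im) :
    Summable fun w => ‖Q.weight M d m h w * Q.dual.term z w‖ :=
  Summable.of_nonneg_of_le (fun _ => norm_nonneg _)
    (fun w => (norm_mul _ _).le.trans
      (mul_le_mul_of_nonneg_right (Q.norm_weight_le M d m h w) (norm_nonneg _)))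
    ((Q.dual.summable_norm_term hz).mul_left _)

/-- The series of a class near the rational number `m / d`. -/
theorem coset_shift (h : Fin 4 → ℤ) (m : ℤ) (d : ℕ) [NeZero d] {u : ℂ} (hu : 0 < u.im) :
    Q.coset M h ((m : ℂ) / d + u) = -Q.const / (u * ((d : ℂ) * M) ^ 2) ^ 2 *
      ∑' w : Fin 4 → ℤ, Q.weight M d m h w *
        Q.dual.term (-1 / ((Q.N : ℂ) * (u * ((d : ℂ) * M) ^ 2))) w := by
  have hdM : ((d : ℂ) * M) ≠ 0 :=
    mul_ne_zero (Nat.cast_ne_zero.2 (NeZero.ne d)) (Nat.cast_ne_zero.2 (NeZero.ne M))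
  have hm : 0 < ((m : ℂ) / d + u).im := by
    rw [show (m : ℂ) / d = (((m : ℝ) / d : ℝ) : ℂ) by push_cast; rfl, Complex.add_im,
      Complex.ofReal_im, zero_add]
    exact hu
  have hz : 0 < (u * ((d : ℂ) * M) ^ 2).im := by
    rw [show u * ((d : ℂ) * M) ^ 2 = ((((d : ℝ) * M) ^ 2 : ℝ) : ℂ) * u by push_cast; ring,
      Complex.im_ofReal_mul]
    exact mul_pos (by have := NeZero.pos d; have := NeZero.pos M; positivity) hu
  have hw : 0 < (-1 / ((Q.N : ℂ) * (u * ((d : ℂ) * M) ^ 2))).im := by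
    refine im_neg_one_div ?_
    rw [show (Q.N : ℂ) = ((Q.N : ℝ) : ℂ) by push_cast; rfl, Complex.im_ofReal_mul]
    exact mul_pos Q.N_pos hz
  have hsum : Summable fun p => Q.term ((m : ℂ) / d + u) (h + (M : ℤ) • residueQuotPi d p) :=
    ((Q.summable_norm_coset M h hm).of_norm).comp_injective (residueQuotPi d).injective
  have hterm : ∀ s y, Q.term ((m : ℂ) / d + u) (h + (M : ℤ) • residueQuotPi d (s, y)) =
      ZMod.stdAddChar ((m : ZMod d) * ((Q.eval (h + (M : ℤ) • liftVec s) : ℤ) : ZMod d)) *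
        cexp (π * I * (u * ((d : ℂ) * M) ^ 2) *
          (qf Q.AR (fun i => (y i : ℝ) + ((h i : ℝ) + M * liftVec s i) / (d * M)) : ℂ)) := by
    intro s y
    set x := h + (M : ℤ) • residueQuotPi d (s, y) with hx
    have hev : ((Q.eval x : ℤ) : ZMod d) = ((Q.eval (h + (M : ℤ) • liftVec s) : ℤ) : ZMod d) := by
      rw [intCast_eval, intCast_eval]
      congr 1
      funext i
      simp [hx, residueQuotPi_apply]
    have hxr : (fun i => (x i : ℝ)) =
        ((d : ℝ) * M) • fun i => (y i : ℝ) + ((h i : ℝ) + M * liftVec s i) / (d * M) := funext fun i => by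
      have hd0 : (d : ℝ) ≠ 0 := Nat.cast_ne_zero.2 (NeZero.ne d)
      have hM0 : (M : ℝ) ≠ 0 := Nat.cast_ne_zero.2 (NeZero.ne M)
      simp only [hx, residueQuotPi_apply, Pi.add_apply, Pi.smul_apply, smul_eq_mul]
      push_cast
      field_simp
      ring
    have hq : (2 * (Q.eval x : ℝ) : ℝ) = ((d : ℝ) * M) ^ 2 *
        qf Q.AR (fun i => (y i : ℝ) + ((h i : ℝ) + M * liftVec s i) / (d * M)) := by
      rw [← qf_AR, hxr, qf, qf, mulVec_smul, smul_dotProduct, dotProduct_smul, smul_eq_mul,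
        smul_eq_mul]
      ring
    have hqC := congrArg (fun r : ℝ => (r : ℂ)) hq
    push_cast at hqC
    rw [← hev, ← Int.cast_mul, ZMod.stdAddChar_coe, term, ← Complex.exp_add]
    congr 1
    push_cast
    linear_combination (π * I * u) * hqC
  rw [coset, ← (residueQuotPi d).tsum_eq, hsum.tsum_prod, tsum_fintype]
  simp only [hterm, tsum_mul_left, Q.poisson hz]
  rw [Finset.sum_congr rfl fun s _ => mul_left_comm _ _ _, ← Finset.mul_sum]
  congr 1
  simp only [← tsum_mul_left]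
  rw [← Summable.tsum_finsetSum fun s _ => ?_]
  · refine tsum_congr fun w => ?_
    rw [weight, Finset.sum_mul]
    refine Finset.sum_congr rfl fun s _ => ?_
    rw [← mul_assoc]
    congr 3
    simp only [Fin.sum_univ_four]
    push_cast
    ring
  · refine Summable.of_norm ((Q.dual.summable_norm_term hw).congr fun w => ?_)
    rw [norm_mul, norm_mul, ZMod.stdAddChar_apply, Circle.norm_coe, one_mul, Complex.norm_exp,
      re_two_pi_I_mul, one_mul]

/-- The series itself after Poisson summation. -/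
theorem coset_eq_inv (h : Fin 4 → ℤ) {τ : ℂ} (hτ : 0 < τ.im) :
    Q.coset M h τ = -Q.const / (τ * (M : ℂ) ^ 2) ^ 2 *
      ∑' w : Fin 4 → ℤ, cexp (2 * π * I * ((∑ i, (w i : ℂ) * (h i : ℂ)) / M)) *
        Q.dual.term (-1 / ((Q.N : ℂ) * (τ * (M : ℂ) ^ 2))) w := by
  have h1 := Q.coset_shift M h 0 1 hτ
  simp only [Int.cast_zero, Nat.cast_one, div_one, zero_add, one_mul] at h1
  rw [h1]
  refine congrArg _ (tsum_congr fun w => congrArg (· * _) ?_)
  rw [weight, Fintype.sum_unique]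
  have hl : ∀ s : Fin 4 → ZMod 1, liftVec s = 0 := fun s => funext fun i => by
    have := (s i).val_lt
    simp only [liftVec, Pi.zero_apply]
    omega
  simp [hl]

/-- Completing the square. -/
theorem weight_eq {d : ℕ} [NeZero d] {a b c' : ℤ}
    (hrel : ((b * (M : ℤ) ^ 2 : ℤ) : ZMod d) * Q.N * c' = -1) (h w : Fin 4 → ℤ) :
    Q.weight M d b (fun i => a * d * h i) w *
        ZMod.stdAddChar (-(c' : ZMod d) * ((Q.dual.eval w : ℤ) : ZMod d)) =
      Q.gauss d (b * (M : ℤ) ^ 2) *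
        cexp (2 * π * I * ((∑ i, (w i : ℂ) * ((a * h i : ℤ) : ℂ)) / M)) := by
  set b' : ℤ := b * (M : ℤ) ^ 2 with hb'
  set t : Fin 4 → ℤ := (-c') • (Q.adj *ᵥ w) with ht
  have hdC : (d : ℂ) ≠ 0 := Nat.cast_ne_zero.2 (NeZero.ne d)
  have hMC : (M : ℂ) ≠ 0 := Nat.cast_ne_zero.2 (NeZero.ne M)
  have hAt : Q.A *ᵥ t = (-c' * Q.N) • w := by
    rw [ht, mulVec_smul, mulVec_mulVec, Q.mul_adj, smul_mulVec, one_mulVec, smul_smul]
  have hevt : Q.eval t = c' ^ 2 * (Q.N * Q.dual.eval w) := by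
    rw [ht, eval_smul, neg_sq]
    congr 1
    refine mul_left_cancel₀ (two_ne_zero (α := ℤ)) ?_
    rw [two_mul_eval, mulVec_mulVec, Q.mul_adj, smul_mulVec, one_mulVec, dotProduct_smul,
      dotProduct_comm, smul_eq_mul, mul_left_comm, Q.dual.two_mul_eval]
    rfl
  rw [weight, Finset.sum_mul, gauss, Finset.sum_mul]
  refine Fintype.sum_equiv (Equiv.addRight fun i => (t i : ZMod d)) _ _ fun s => ?_
  have h1 : ((Q.eval ((fun i => a * d * h i) + (M : ℤ) • liftVec s) : ℤ) : ZMod d) =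
      ((M : ℤ) ^ 2 : ℤ) * Q.evalZ s := by
    rw [show Q.evalZ s = ((Q.eval (liftVec s) : ℤ) : ZMod d) from rfl, ← Int.cast_mul,
      ← eval_smul, intCast_eval, intCast_eval]
    congr 1
    funext i
    simp
  have h2 : cexp (2 * π * I * ((∑ i, (w i : ℂ) * (((a * d * h i : ℤ) : ℂ) +
      M * (liftVec s i : ℂ))) / (d * M))) =
      ZMod.stdAddChar ((∑ i, w i * liftVec s i : ℤ) : ZMod d) *
        cexp (2 * π * I * ((∑ i, (w i : ℂ) * ((a * h i : ℤ) : ℂ)) / M)) := by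
    rw [ZMod.stdAddChar_coe, ← Complex.exp_add]
    congr 1
    simp only [Fin.sum_univ_four]
    push_cast
    field_simp
    ring
  have h3 : ((∑ i, w i * liftVec s i : ℤ) : ZMod d) =
      (b' : ZMod d) * (s ⬝ᵥ (Q.A.map (Int.castRingHom (ZMod d))) *ᵥ fun i => (t i : ZMod d)) := by
    rw [show (Q.A.map (Int.castRingHom (ZMod d))) *ᵥ (fun i => (t i : ZMod d)) =
      fun i => (((Q.A *ᵥ t) i : ℤ) : ZMod d) from funext fun i => by simp [mulVec, dotProduct],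
      hAt]
    simp only [dotProduct, liftVec, Fin.sum_univ_four, Pi.smul_apply, smul_eq_mul]
    push_cast
    simp only [ZMod.natCast_val, ZMod.cast_id', id]
    linear_combination ((w 0 : ZMod d) * s 0 + (w 1 : ZMod d) * s 1 + (w 2 : ZMod d) * s 2 +
      (w 3 : ZMod d) * s 3) * hrel
  rw [h1, h2, h3, Equiv.coe_addRight, evalZ_add, ← intCast_eval Q t, hevt]
  rw [← mul_assoc (ZMod.stdAddChar _ : ℂ), mul_right_comm]
  congr 1
  rw [← AddChar.map_add_eq_mul, ← AddChar.map_add_eq_mul]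
  congr 1
  have hb'' : (b' : ZMod d) = (b : ZMod d) * (M : ZMod d) ^ 2 := by rw [hb']; push_cast; ring
  push_cast
  linear_combination (-(c' : ZMod d) * ((Q.dual.eval w : ℤ) : ZMod d)) * hrel - Q.evalZ s * hb''

theorem coe_smul_eq (γ : SL(2, ℤ)) (τ : ℍ) :
    (↑(γ • τ) : ℂ) = ((γ 0 0 : ℂ) * τ + γ 0 1) / ((γ 1 0 : ℂ) * τ + γ 1 1) := by
  rw [UpperHalfPlane.specialLinearGroup_apply]
  simp

theorem denom_int_ne_zero (γ : SL(2, ℤ)) (τ : ℍ) : (γ 1 0 : ℂ) * τ + γ 1 1 ≠ 0 := by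
  have := UpperHalfPlane.denom_ne_zero (γ : GL (Fin 2) ℝ) τ
  simpa [UpperHalfPlane.denom] using this

theorem det_eq (γ : SL(2, ℤ)) : (γ 0 0 : ℂ) * γ 1 1 - (γ 0 1 : ℂ) * γ 1 0 = 1 := by
  have := γ.2
  rw [Matrix.det_fin_two] at this
  exact_mod_cast this

/-- The class series on the upper half plane. -/
def cosetH (h : Fin 4 → ℤ) : ℍ → ℂ := fun τ => Q.coset M h τ

theorem slash_two_apply (f : ℍ → ℂ) (γ : SL(2, ℤ)) (τ : ℍ) :
    (f ∣[(2 : ℤ)] γ) τ = f (γ • τ) * (((γ 1 0 : ℂ) * τ + γ 1 1) ^ 2)⁻¹ := by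
  rw [ModularForm.SL_slash_apply]
  simp [UpperHalfPlane.denom, _root_.zpow_neg]

/-- The action of an element of `Γ₀(N M²)` with prime lower right entry. -/
theorem slash_cosetH_of_prime {γ : SL(2, ℤ)} (hγ : γ ∈ Gamma0 (Q.N * M ^ 2)) {p : ℕ}
    [Fact p.Prime] (hp2 : p ≠ 2) (hpD : ¬ (p : ℤ) ∣ Q.A.det)
    (hd : γ 1 1 = p) (h : Fin 4 → ℤ) :
    Q.cosetH M h ∣[(2 : ℤ)] γ = Q.cosetH M (γ 0 0 • h) := by
  funext τ
  obtain ⟨c', hc'⟩ := (ZMod.intCast_zmod_eq_zero_iff_dvd _ _).1 (Gamma0_mem.1 hγ)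
  have hdet : γ 0 0 * γ 1 1 - γ 0 1 * γ 1 0 = 1 := by
    have h := γ.2
    rwa [Matrix.det_fin_two] at h
  have hdetC := det_eq γ
  have hden := denom_int_ne_zero γ τ
  rw [hd, Int.cast_natCast] at hdetC hden
  have hdC : (p : ℂ) ≠ 0 := Nat.cast_ne_zero.2 (NeZero.ne p)
  have hMC : (M : ℂ) ≠ 0 := Nat.cast_ne_zero.2 (NeZero.ne M)
  have hτ : (τ : ℂ) ≠ 0 := τ.ne_zero
  have hN : (Q.N : ℂ) ≠ 0 := Nat.cast_ne_zero.2 Q.N_ne_zero
  have had : ((γ 0 0 * (p : ℤ) : ℤ) : ZMod M) = 1 := by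
    have := congrArg (Int.cast : ℤ → ZMod M) hdet
    rw [hd, hc'] at this
    push_cast at this
    rw [ZMod.natCast_self] at this
    push_cast
    linear_combination this
  have hrel : ((γ 0 1 * (M : ℤ) ^ 2 : ℤ) : ZMod p) * Q.N * c' = -1 := by
    have := congrArg (Int.cast : ℤ → ZMod p) hdet
    rw [hd, hc'] at this
    push_cast at this
    rw [ZMod.natCast_self] at this
    push_cast
    linear_combination -this
  have hb : ¬ (p : ℤ) ∣ γ 0 1 * (M : ℤ) ^ 2 := fun hdvd => by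
    rw [(ZMod.intCast_zmod_eq_zero_iff_dvd _ _).2 hdvd, zero_mul, zero_mul] at hrel
    exact neg_ne_zero.2 one_ne_zero hrel.symm
  set u : ℂ := (τ : ℂ) / (p * ((γ 1 0 : ℂ) * τ + p)) with hu
  have hz : (↑(γ • τ) : ℂ) = (γ 0 1 : ℂ) / p + u := by
    rw [coe_smul_eq, hd, Int.cast_natCast, hu, div_add_div _ _ hdC (mul_ne_zero hdC hden),
      div_eq_div_iff hden (mul_ne_zero hdC (mul_ne_zero hdC hden))]
    linear_combination ((p : ℂ) * ((γ 1 0 : ℂ) * τ + p) * τ) * hdetC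
  have hum : 0 < u.im := by
    have h := (γ • τ).im_pos
    rw [← UpperHalfPlane.coe_im, hz,
      show (γ 0 1 : ℂ) / p = (((γ 0 1 : ℝ) / p : ℝ) : ℂ) by push_cast; rfl, Complex.add_im,
      Complex.ofReal_im, zero_add] at h
    exact h
  rw [slash_two_apply, hd, Int.cast_natCast]
  show Q.coset M h _ * _ = Q.coset M _ _
  rw [hz, Q.coset_congr M (h' := fun i => γ 0 0 * p * h i)
      (fun i => by rw [Int.cast_mul, had, one_mul]),
    coset_shift Q M _ _ p hum, Q.coset_eq_inv M _ τ.im_pos]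
  have hsum : ∀ w : Fin 4 → ℤ,
      Q.weight M p (γ 0 1) (fun i => γ 0 0 * p * h i) w *
          Q.dual.term (-1 / ((Q.N : ℂ) * (u * ((p : ℂ) * M) ^ 2))) w =
        (p : ℂ) ^ 2 * (cexp (2 * π * I * ((∑ i, (w i : ℂ) * ((γ 0 0 • h) i : ℂ)) / M)) *
          Q.dual.term (-1 / ((Q.N : ℂ) * ((τ : ℂ) * (M : ℂ) ^ 2))) w) := fun w => by
    rw [show Q.dual.term (-1 / ((Q.N : ℂ) * (u * ((p : ℂ) * M) ^ 2))) w =
      ZMod.stdAddChar (-(c' : ZMod p) * ((Q.dual.eval w : ℤ) : ZMod p)) *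
        Q.dual.term (-1 / ((Q.N : ℂ) * ((τ : ℂ) * (M : ℂ) ^ 2))) w by
      rw [← Int.cast_neg, ← Int.cast_mul, ZMod.stdAddChar_coe, term, term, ← Complex.exp_add]
      congr 1
      rw [hu, hc']
      push_cast
      field_simp
      ring,
      ← mul_assoc, weight_eq Q M hrel, gauss_prime Q hp2 hpD hb, mul_assoc]
    rfl
  have hfac : ∀ e S : ℂ, e ≠ 0 → -Q.const / ((τ : ℂ) / (p * e) * ((p : ℂ) * M) ^ 2) ^ 2 *
      ((p : ℂ) ^ 2 * S) * (e ^ 2)⁻¹ = -Q.const / ((τ : ℂ) * (M : ℂ) ^ 2) ^ 2 * S := fun e S he => by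
    field_simp
  rw [tsum_congr hsum, tsum_mul_left, hu]
  exact hfac _ _ hden

omit [NeZero M] in
theorem slash_T_zpow (h : Fin 4 → ℤ) (n : ℤ) :
    Q.cosetH M h ∣[(2 : ℤ)] (ModularGroup.T ^ n : SL(2, ℤ)) = Q.cosetH M h := by
  funext τ
  rw [slash_two_apply, UpperHalfPlane.modular_T_zpow_smul, ModularGroup.coe_T_zpow]
  simp only [Matrix.of_apply, Matrix.cons_val', Matrix.cons_val_zero, Matrix.cons_val_one,
    Matrix.cons_val_fin_one, Int.cast_zero, Int.cast_one, zero_mul, zero_add, one_pow, inv_one,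
    mul_one]
  show Q.coset M h _ = Q.coset M h τ
  rw [← Q.coset_add_int M h n τ, UpperHalfPlane.coe_vadd, add_comm, Complex.ofReal_intCast]

/-- **The transformation of the class series under `Γ₀(N M²)`.** -/
theorem slash_cosetH {γ : SL(2, ℤ)} (hγ : γ ∈ Gamma0 (Q.N * M ^ 2)) (h : Fin 4 → ℤ) :
    Q.cosetH M h ∣[(2 : ℤ)] γ = Q.cosetH M (γ 0 0 • h) := by
  have hdet : γ 0 0 * γ 1 1 - γ 0 1 * γ 1 0 = 1 := by
    have h := γ.2
    rwa [Matrix.det_fin_two] at h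
  by_cases hc : γ 1 0 = 0
  · funext τ
    rw [hc, mul_zero, sub_zero] at hdet
    rw [slash_two_apply]
    show Q.coset M h _ * _ = Q.coset M (γ 0 0 • h) τ
    rw [coe_smul_eq, hc, Int.cast_zero, zero_mul, zero_add]
    rcases Int.eq_one_or_neg_one_of_mul_eq_one' hdet with ⟨ha, hd⟩ | ⟨ha, hd⟩
    · rw [ha, hd, one_smul]
      simp [coset_add_int]
    · rw [ha, hd, neg_one_smul, coset_neg]
      have h' := Q.coset_add_int M h (-γ 0 1) τ
      push_cast at h' ⊢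
      simp only [neg_one_mul, neg_sq, one_pow, inv_one, mul_one, div_neg, div_one, neg_add, neg_neg]
      exact h'
  set c := (γ 1 0).natAbs
  have : NeZero c := ⟨Int.natAbs_ne_zero.2 hc⟩
  have hu : IsUnit ((γ 1 1 : ℤ) : ZMod c) := by
    refine IsUnit.of_mul_eq_one ((γ 0 0 : ℤ) : ZMod c) ?_
    have h0 : ((γ 1 0 : ℤ) : ZMod c) = 0 :=
      (ZMod.intCast_zmod_eq_zero_iff_dvd _ _).2 (Int.natAbs_dvd.2 dvd_rfl)
    have := congrArg (Int.cast : ℤ → ZMod c) hdet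
    push_cast at this
    rw [h0, mul_zero, sub_zero] at this
    rwa [mul_comm]
  obtain ⟨p, hpgt, hp, hpc⟩ :=
    Nat.forall_exists_prime_gt_and_eq_mod hu (max (max M Q.A.det.natAbs) 2)
  have : Fact p.Prime := ⟨hp⟩
  obtain ⟨k, hk⟩ : γ 1 0 ∣ (p : ℤ) - γ 1 1 :=
    Int.natAbs_dvd.1 ((ZMod.intCast_zmod_eq_zero_iff_dvd _ _).1 (by push_cast; rw [hpc, sub_self]))
  simp only [max_lt_iff] at hpgt
  set γ' := γ * ModularGroup.T ^ k with hγ'
  have hT : (ModularGroup.T ^ k : SL(2, ℤ)) ∈ Gamma0 (Q.N * M ^ 2) := by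
    rw [Gamma0_mem, ModularGroup.coe_T_zpow]; simp
  have h00 : γ' 0 0 = γ 0 0 := by
    simp [γ', Matrix.mul_apply, Fin.sum_univ_two, ModularGroup.coe_T_zpow]
  have h11 : γ' 1 1 = (p : ℤ) := by
    rw [show (p : ℤ) = γ 1 1 + k * γ 1 0 by linarith]
    simp [γ', Matrix.mul_apply, Fin.sum_univ_two, ModularGroup.coe_T_zpow]
    ring
  have hval := Q.slash_cosetH_of_prime M (mul_mem hγ hT) (p := p) (by omega)
    (fun hdvd => absurd (Nat.le_of_dvd (Int.natAbs_pos.2 Q.det_ne_zero) (Int.natCast_dvd.1 hdvd))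
      (not_le.2 hpgt.1.2)) h11 h
  rw [h00] at hval
  have hγeq : γ = γ' * ModularGroup.T ^ (-k) := by
    rw [hγ', mul_assoc, ← _root_.zpow_add, add_neg_cancel, zpow_zero, mul_one]
  conv_lhs => rw [hγeq, SlashAction.slash_mul, hval]
  rw [slash_T_zpow]

theorem mdifferentiable_cosetH (h : Fin 4 → ℤ) :
    MDifferentiable 𝓘(ℂ) 𝓘(ℂ) (Q.cosetH M h) := by
  rw [UpperHalfPlane.mdifferentiable_iff]
  intro z hz
  have hz' : 0 < z.im := hz
  have hU : IsOpen {w : ℂ | z.im / 2 < w.im} := isOpen_lt continuous_const Complex.continuous_im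
  have hd : DifferentiableOn ℂ (Q.coset M h) {w : ℂ | z.im / 2 < w.im} := by
    refine differentiableOn_tsum_of_summable_norm
      (u := fun y => ‖Q.term ((z.im / 2 : ℝ) * I) (h + (M : ℤ) • y)‖)
      (Q.summable_norm_coset M h (by simp; linarith)) (fun x => ?_) hU fun x w hw => ?_
    · exact ((differentiable_id.const_mul (2 * π * I)).mul_const _).cexp.differentiableOn
    · exact Q.norm_term_le (le_of_lt hw) _
  have hmem : z ∈ {w : ℂ | z.im / 2 < w.im} := by simp; linarith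
  have hat : DifferentiableAt ℂ (Q.coset M h) z := (hd z hmem).differentiableAt (hU.mem_nhds hmem)
  refine (hat.congr_of_eventuallyEq ?_).differentiableWithinAt
  filter_upwards [hU.mem_nhds hmem] with w hw
  have hw' : 0 < w.im := lt_trans (by linarith) hw
  simp [cosetH, Function.comp_apply, UpperHalfPlane.ofComplex_apply_of_im_pos hw']

theorem isBoundedAtImInfty_slash_cosetH (γ : SL(2, ℤ)) (h : Fin 4 → ℤ) :
    IsBoundedAtImInfty (Q.cosetH M h ∣[(2 : ℤ)] γ) := by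
  rw [UpperHalfPlane.isBoundedAtImInfty_iff]
  have hdet : γ 0 0 * γ 1 1 - γ 0 1 * γ 1 0 = 1 := by
    have h := γ.2
    rwa [Matrix.det_fin_two] at h
  rcases eq_or_ne (γ 1 0) 0 with hc | hc
  · refine ⟨∑' y, ‖Q.term (((1 : ℝ) : ℂ) * I) (h + (M : ℤ) • y)‖, 1, fun τ hτ => ?_⟩
    rw [hc, mul_zero, sub_zero] at hdet
    obtain ⟨n, hn, hd⟩ : ∃ n : ℤ, (↑(γ • τ) : ℂ) = τ + n ∧ (γ 1 1 : ℂ) ^ 2 = 1 := by
      rcases Int.eq_one_or_neg_one_of_mul_eq_one' hdet with ⟨ha, hd⟩ | ⟨ha, hd⟩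
      · exact ⟨γ 0 1, by rw [coe_smul_eq, hc, ha, hd]; simp, by simp [hd]⟩
      · refine ⟨-γ 0 1, ?_, by simp [hd]⟩
        rw [coe_smul_eq, hc, ha, hd]
        push_cast
        field_simp
        ring
    rw [slash_two_apply, hc, Int.cast_zero, zero_mul, zero_add, hd, inv_one, mul_one]
    show ‖Q.coset M h _‖ ≤ _
    rw [hn, coset_add_int]
    exact (norm_tsum_le_tsum_norm (Q.summable_norm_coset M h τ.im_pos)).trans
      (Summable.tsum_le_tsum (fun y => Q.norm_term_le hτ _) (Q.summable_norm_coset M h τ.im_pos)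
        (Q.summable_norm_coset M h (by simp)))
  · set c := (γ 1 0).natAbs with hcdef
    have : NeZero c := ⟨Int.natAbs_ne_zero.2 hc⟩
    refine ⟨‖Q.const‖ / ((γ 1 0 : ℝ) ^ 2 * (M : ℝ) ^ 4) *
      ((c : ℝ) ^ 4 * ∑' w, ‖Q.dual.term (((1 : ℝ) / (Q.N * (M : ℝ) ^ 2) : ℝ) * I) w‖), 1,
      fun τ hτ => ?_⟩
    have hcC : (γ 1 0 : ℂ) ≠ 0 := Int.cast_ne_zero.2 hc
    have hMC : (M : ℂ) ≠ 0 := Nat.cast_ne_zero.2 (NeZero.ne M)
    have hN : (Q.N : ℂ) ≠ 0 := Nat.cast_ne_zero.2 Q.N_ne_zero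
    have hden := denom_int_ne_zero γ τ
    have hdetC := det_eq γ
    set u : ℂ := -1 / ((γ 1 0 : ℂ) * ((γ 1 0 : ℂ) * τ + γ 1 1)) with hu
    obtain ⟨m, hm⟩ : ∃ m : ℤ, (γ 0 0 : ℂ) / (γ 1 0 : ℂ) = (m : ℂ) / c := by
      rcases Int.natAbs_eq (γ 1 0) with h1 | h1
      · have : (γ 1 0 : ℂ) = c := (congrArg (Int.cast : ℤ → ℂ) h1).trans (Int.cast_natCast c)
        exact ⟨γ 0 0, by rw [this]⟩
      · have : (γ 1 0 : ℂ) = -(c : ℂ) := (congrArg (Int.cast : ℤ → ℂ) h1).trans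
          (by rw [Int.cast_neg, Int.cast_natCast])
        exact ⟨-γ 0 0, by rw [this]; push_cast; ring⟩
    have hz : (↑(γ • τ) : ℂ) = (m : ℂ) / c + u := by
      rw [← hm, coe_smul_eq, hu, div_add_div _ _ hcC (mul_ne_zero hcC hden),
        div_eq_div_iff hden (mul_ne_zero hcC (mul_ne_zero hcC hden))]
      linear_combination (-(γ 1 0 : ℂ) * ((γ 1 0 : ℂ) * τ + γ 1 1)) * hdetC
    have hum : 0 < u.im := by
      have h := (γ • τ).im_pos
      rw [← UpperHalfPlane.coe_im, hz,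
        show (m : ℂ) / c = (((m : ℝ) / c : ℝ) : ℂ) by push_cast; rfl, Complex.add_im,
        Complex.ofReal_im, zero_add] at h
      exact h
    have hc2 : (c : ℂ) ^ 2 = (γ 1 0 : ℂ) ^ 2 := by
      have : ((c : ℤ)) ^ 2 = (γ 1 0) ^ 2 := Int.natAbs_sq _
      exact_mod_cast this
    rw [slash_two_apply]
    show ‖Q.coset M h _ * _‖ ≤ _
    rw [hz, coset_shift Q M h m c hum]
    have harg : -1 / ((Q.N : ℂ) * (u * ((c : ℂ) * M) ^ 2)) =
        ((τ : ℂ) + (γ 1 1 : ℂ) / γ 1 0) / ((Q.N : ℂ) * (M : ℂ) ^ 2) := by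
      rw [mul_pow (c : ℂ) (M : ℂ) 2, hc2, hu]
      field_simp
    have hfac : -Q.const / (u * ((c : ℂ) * M) ^ 2) ^ 2 * (((γ 1 0 : ℂ) * τ + γ 1 1) ^ 2)⁻¹ =
        -Q.const / ((γ 1 0 : ℂ) ^ 2 * (M : ℂ) ^ 4) := by
      rw [mul_pow (c : ℂ) (M : ℂ) 2, hc2, hu]
      field_simp
    rw [mul_right_comm, hfac, harg, norm_mul]
    refine mul_le_mul (le_of_eq ?_) ?_ (norm_nonneg _) (by positivity)
    · rw [norm_div, norm_neg, norm_mul, norm_pow, norm_pow, Complex.norm_natCast,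
        Complex.norm_intCast, sq_abs]
    have him : (((τ : ℂ) + (γ 1 1 : ℂ) / γ 1 0) / ((Q.N : ℂ) * (M : ℂ) ^ 2)).im =
        τ.im / (Q.N * (M : ℝ) ^ 2) := by
      rw [show (γ 1 1 : ℂ) / γ 1 0 = (((γ 1 1 : ℝ) / γ 1 0 : ℝ) : ℂ) by push_cast; rfl,
        show (Q.N : ℂ) * (M : ℂ) ^ 2 = (((Q.N : ℝ) * (M : ℝ) ^ 2 : ℝ) : ℂ) by push_cast; rfl,
        Complex.div_ofReal_im, Complex.add_im, Complex.ofReal_im, add_zero]
      rfl
    have hNM : (0 : ℝ) < Q.N * (M : ℝ) ^ 2 :=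
      mul_pos Q.N_pos (pow_pos (Nat.cast_pos.2 (NeZero.pos M)) 2)
    have hpos : 0 < (((τ : ℂ) + (γ 1 1 : ℂ) / γ 1 0) / ((Q.N : ℂ) * (M : ℂ) ^ 2)).im := by
      rw [him]; exact div_pos τ.im_pos hNM
    refine (norm_tsum_le_tsum_norm (Q.summable_weight_term M c m h hpos)).trans ?_
    rw [← tsum_mul_left]
    refine Summable.tsum_le_tsum (fun w => ?_) (Q.summable_weight_term M c m h hpos)
      ((Q.dual.summable_norm_term (by
        rw [Complex.mul_im, Complex.ofReal_re, Complex.ofReal_im, Complex.I_im, Complex.I_re]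
        simpa using div_pos one_pos hNM)).mul_left _)
    rw [norm_mul]
    exact mul_le_mul (Q.norm_weight_le M c m h w) (Q.dual.norm_term_le
      (by rw [him]; exact div_le_div_of_nonneg_right hτ hNM.le) w) (norm_nonneg _)
      (by positivity)

end EvenForm

end Fermat.Agent.Two.Theta.Quat
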