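import Mathlib.NumberTheory.ModularForms.QExpansion
import Mathlib.NumberTheory.DirichletCharacter.Basic
import Fermat.Prelude.Def_FLTPrelim_Modularity
import Fermat.Agent.Two.Theta.Quat.Coset

/-!
# Quaternary theta series with a periodic weight

For an even positive quaternary form of level `N` with square determinant and a function `φ` modulo
`M` with `φ (a h) = χ a φ h`, the series `∑ φ(x) q^{Q(x)}` is a modular form of weight two on
`Γ₁(N M²)` on which `Γ₀(N M²)` acts through `χ`.
-/

set_option autoImplicit false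

noncomputable section

open Complex Matrix CongruenceSubgroup ModularFormClass
open UpperHalfPlane hiding I
open scoped Real MatrixGroups ModularForm Manifold OnePoint

namespace Fermat.Agent.Two.Theta.Quat

namespace EvenForm

variable (Q : EvenForm) (M : ℕ) [NeZero M] (φ : (Fin 4 → ZMod M) → ℂ)

omit [NeZero M] in
/-- The residues of an integral vector. -/
abbrev residue (x : Fin 4 → ℤ) : Fin 4 → ZMod M := fun i => (x i : ZMod M)

/-- The weighted theta series as a function. -/
def thetaH : ℍ → ℂ := fun τ => ∑' x : Fin 4 → ℤ, φ (residue M x) * Q.term τ x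

theorem summable_weighted (τ : ℍ) :
    Summable fun x : Fin 4 → ℤ => φ (residue M x) * Q.term τ x := by
  refine Summable.of_norm (Summable.of_nonneg_of_le (fun _ => norm_nonneg _) (fun x => ?_)
    ((Q.summable_norm_term τ.im_pos).mul_left (∑ h, ‖φ h‖)))
  rw [norm_mul]
  exact mul_le_mul_of_nonneg_right
    (Finset.single_le_sum (fun h _ => norm_nonneg (φ h)) (Finset.mem_univ _)) (norm_nonneg _)

theorem thetaH_eq_sum :
    Q.thetaH M φ = ∑ h : Fin 4 → ZMod M, φ h • Q.cosetH M (liftVec h) := by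
  funext τ
  rw [Finset.sum_apply]
  show ∑' x, _ = _
  have hsum : Summable fun p => φ (residue M (residueQuotPi M p)) * Q.term τ (residueQuotPi M p) :=
    (Q.summable_weighted M φ τ).comp_injective (residueQuotPi M).injective
  rw [← (residueQuotPi M).tsum_eq, hsum.tsum_prod, tsum_fintype]
  refine Finset.sum_congr rfl fun h _ => ?_
  show _ = φ h * Q.coset M (liftVec h) τ
  rw [coset, ← tsum_mul_left]
  refine tsum_congr fun y => ?_
  rw [residueQuotPi_apply]
  congr 2
  funext i
  simp [residue, liftVec]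

variable {M φ} (χ : DirichletCharacter ℂ M)
  (hφ : ∀ a : ℤ, IsUnit (a : ZMod M) → ∀ h : Fin 4 → ZMod M, φ (a • h) = χ a * φ h)

include hφ

/-- **The action of `Γ₀(N M²)`.** -/
theorem slash_thetaH {γ : SL(2, ℤ)} (hγ : γ ∈ Gamma0 (Q.N * M ^ 2)) :
    Q.thetaH M φ ∣[(2 : ℤ)] γ = χ ((γ 1 1 : ℤ) : ZMod M) • Q.thetaH M φ := by
  classical
  have had : ((γ 0 0 : ℤ) : ZMod M) * ((γ 1 1 : ℤ) : ZMod M) = 1 := by
    obtain ⟨c', hc'⟩ := (ZMod.intCast_zmod_eq_zero_iff_dvd _ _).1 (Gamma0_mem.1 hγ)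
    have hdet := γ.2
    rw [Matrix.det_fin_two, hc'] at hdet
    have := congrArg (Int.cast : ℤ → ZMod M) hdet
    push_cast at this
    rw [ZMod.natCast_self] at this
    linear_combination this
  have hu : IsUnit ((γ 1 1 : ℤ) : ZMod M) := .of_mul_eq_one_right _ had
  rw [thetaH_eq_sum]
  have hs : ∀ s : Finset (Fin 4 → ZMod M), (∑ h ∈ s, φ h • Q.cosetH M (liftVec h)) ∣[(2 : ℤ)] γ =
      ∑ h ∈ s, φ h • Q.cosetH M (γ 0 0 • liftVec h) := fun s => by
    induction s using Finset.induction with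
    | empty => simp
    | insert a s ha ih =>
      rw [Finset.sum_insert ha, Finset.sum_insert ha, SlashAction.add_slash, ih,
        ModularForm.SL_smul_slash, Q.slash_cosetH M hγ]
  rw [hs, Finset.smul_sum]
  let e : (Fin 4 → ZMod M) ≃ (Fin 4 → ZMod M) :=
    { toFun := fun h => (γ 0 0) • h
      invFun := fun h => (γ 1 1) • h
      left_inv := fun h => funext fun i => by
        simp only [Pi.smul_apply, zsmul_eq_mul, Pi.mul_apply, Pi.intCast_apply]; linear_combination h i * had
      right_inv := fun h => funext fun i => by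
        simp only [Pi.smul_apply, zsmul_eq_mul, Pi.mul_apply, Pi.intCast_apply]; linear_combination h i * had }
  refine Fintype.sum_equiv e _ _ fun h => ?_
  have hh : φ h = χ ((γ 1 1 : ℤ) : ZMod M) * φ (e h) := by
    rw [← hφ _ hu]
    congr 1
    exact (e.left_inv h).symm
  rw [smul_smul, hh]
  congr 1
  funext τ
  refine Q.coset_congr M (fun i => ?_) _
  simp [e, liftVec]

theorem slash_thetaH_gamma1 {γ : SL(2, ℤ)} (hγ : γ ∈ Gamma1 (Q.N * M ^ 2)) :
    Q.thetaH M φ ∣[(2 : ℤ)] γ = Q.thetaH M φ := by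
  obtain ⟨-, h11, h10⟩ := (Gamma1_mem _ _).1 hγ
  rw [Q.slash_thetaH χ hφ (Gamma0_mem.2 h10)]
  have h1 := congrArg (ZMod.castHom (dvd_mul_of_dvd_right (dvd_pow_self M two_ne_zero) Q.N)
    (ZMod M)) h11
  rw [map_intCast, map_one] at h1
  rw [h1, map_one, one_smul]

omit hφ

theorem mdifferentiable_thetaH : MDifferentiable 𝓘(ℂ) 𝓘(ℂ) (Q.thetaH M φ) := by
  rw [thetaH_eq_sum]
  exact MDifferentiable.sum fun h _ => (Q.mdifferentiable_cosetH M _).const_smul _

theorem isBoundedAtImInfty_slash_thetaH (γ : SL(2, ℤ)) :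
    IsBoundedAtImInfty (Q.thetaH M φ ∣[(2 : ℤ)] γ) := by
  classical
  rw [thetaH_eq_sum]
  generalize (Finset.univ : Finset (Fin 4 → ZMod M)) = s
  induction s using Finset.induction with
  | empty =>
    rw [Finset.sum_empty, SlashAction.zero_slash]
    exact (zero_form_isBoundedAtImInfty)
  | insert a s ha ih =>
    rw [Finset.sum_insert ha, SlashAction.add_slash, ModularForm.SL_smul_slash]
    exact ((Q.isBoundedAtImInfty_slash_cosetH M γ _).smul (φ a)).add ih

end EvenForm

variable (Q : EvenForm) {M : ℕ} [NeZero M] (φ : (Fin 4 → ZMod M) → ℂ) (χ : DirichletCharacter ℂ M)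
  (hφ : ∀ a : ℤ, IsUnit (a : ZMod M) → ∀ h : Fin 4 → ZMod M, φ (a • h) = χ a * φ h)

/-- **The theta series of an even quaternary form with a periodic weight.** -/
def theta : ModularForm
    ((Gamma1 (Q.N * M ^ 2) : Subgroup SL(2, ℤ)) : Subgroup (GL (Fin 2) ℝ)) 2 where
  toFun := Q.thetaH M φ
  slash_action_eq' := by
    rintro _ ⟨γ, hγ, rfl⟩
    exact Q.slash_thetaH_gamma1 χ hφ hγ
  holo' := Q.mdifferentiable_thetaH
  bdd_at_cusps' {c} hc := by
    rw [Subgroup.IsArithmetic.isCusp_iff_isCusp_SL2Z] at hc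
    rw [OnePoint.isBoundedAt_iff_forall_SL2Z hc]
    exact fun γ _ => Q.isBoundedAtImInfty_slash_thetaH γ

/-- The coefficient of `q ^ n`. -/
def thetaCoeff (n : ℕ) : ℂ :=
  ∑ x ∈ (Q.finite_eval_eq n).toFinset, φ (fun i => (x i : ZMod M))

theorem hasSum_theta (τ : ℍ) :
    HasSum (fun n : ℕ => thetaCoeff Q φ n • Function.Periodic.qParam 1 τ ^ n)
      (theta Q φ χ hφ τ) := by
  let val : (Fin 4 → ℤ) → ℕ := fun x => (Q.eval x).toNat
  have hval : ∀ x, (val x : ℤ) = Q.eval x := fun x => Int.toNat_of_nonneg (Q.eval_nonneg _)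
  have h : HasSum (fun x : Fin 4 → ℤ => φ (EvenForm.residue M x) * Q.term τ x)
      (theta Q φ χ hφ τ) := (Q.summable_weighted M φ τ).hasSum
  rw [← (Equiv.sigmaFiberEquiv val).hasSum_iff] at h
  refine h.sigma fun n => ?_
  have hiff : ∀ x, x ∈ (Q.finite_eval_eq n).toFinset ↔ val x = n := fun x => by
    rw [Set.Finite.mem_toFinset, Set.mem_ofPred_eq, ← hval, Nat.cast_inj]
  let : Fintype {x : Fin 4 → ℤ // val x = n} := Fintype.subtype _ hiff
  have hterm : ∀ x : {x : Fin 4 → ℤ // val x = n}, Q.term τ x.1 =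
      Function.Periodic.qParam 1 τ ^ n := fun x => by
    rw [EvenForm.term, Function.Periodic.qParam, ← Complex.exp_nat_mul, ← hval, x.2]
    congr 1
    push_cast
    ring
  have := hasSum_fintype fun x : {x : Fin 4 → ℤ // val x = n} =>
    φ (EvenForm.residue M x.1) * Q.term τ x.1
  rw [Finset.sum_congr rfl fun x _ => by rw [hterm x], ← Finset.sum_mul] at this
  rw [smul_eq_mul, thetaCoeff, Finset.sum_subtype _ hiff]
  exact this

end Fermat.Agent.Two.Theta.Quat
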